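import Mathlib
import Fermat.Prelude.Def_ModularForm_HeckeOperator

/-!
# DS-A: definitions (function-level nebentypus, twisted Hecke operator)

Package (A) of Program DS (Deligne-Serre, S48): the formal Hecke relations `hT` of the frozen
statement force `f ∈ S_k(N, ε)` honestly.  Everything is function-level (`ℍ → ℂ`) on top of the
Prelude operators `ModularForm.heckeU` and `ModularForm.heckeDiagMatrix`.
-/

set_option autoImplicit false

open CongruenceSubgroup ModularForm UpperHalfPlane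
open scoped MatrixGroups ModularForm

noncomputable section

/-- `g` transforms under `Γ₀(N)` with nebentypus `χ` (function level, weight `k`). -/
def dsa_Neben (N : ℕ) (k : ℤ) (χ : DirichletCharacter ℂ N) (g : ℍ → ℂ) : Prop :=
  ∀ γ : SL(2, ℤ), γ ∈ Gamma0 N → g ∣[k] γ = χ ((γ 1 1 : ℤ) : ZMod N) • g

/-- `g` is `Γ₁(N)`-invariant (function level, weight `k`). -/
def dsa_Inv1 (N : ℕ) (k : ℤ) (g : ℍ → ℂ) : Prop :=
  ∀ γ : SL(2, ℤ), γ ∈ Gamma1 N → g ∣[k] γ = g

/-- The operator `D = ∣[k] diag(p,1)`, i.e. `(D g)(τ) = p^(k-1) g(pτ)`. -/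
def dsa_D (k : ℤ) (p : ℕ) (g : ℍ → ℂ) : ℍ → ℂ := g ∣[k] heckeDiagMatrix p

/-- The twisted Hecke operator `T^c g = U g + c • D g` (`c = χ(p)`); for `g` of nebentypus `χ`
this is the honest `T_p`. -/
def dsa_T (k : ℤ) (p : ℕ) (c : ℂ) (g : ℍ → ℂ) : ℍ → ℂ := heckeU k p g + c • dsa_D k p g

end
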