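import Mathlib
import Fermat.Agent.DS.A.Defs

/-!
# DS-A, row A11 : two distinct Dirichlet characters are separated by a prime not dividing the level
(helper28; statement VERBATIM from `Fermat/Agent/DS/A/Spec.lean`, helper8)
-/

set_option autoImplicit false

noncomputable section

/-- A11: [Mathlib Dirichlet `Nat.forall_exists_prime_gt_and_eq_mod`]. -/
theorem dsa_exists_prime_ne (N : ℕ) [NeZero N] (χ ε : DirichletCharacter ℂ N) (h : χ ≠ ε) :
    ∃ p : ℕ, p.Prime ∧ ¬ p ∣ N ∧ χ (p : ZMod N) ≠ ε (p : ZMod N) := by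
  -- a unit on which the two characters differ
  have hex : ∃ a : (ZMod N)ˣ, χ a ≠ ε a := by
    by_contra hcon
    push Not at hcon
    exact h (MulChar.ext hcon)
  obtain ⟨a, ha⟩ := hex
  obtain ⟨p, hpN, hp, hpa⟩ := Nat.forall_exists_prime_gt_and_eq_mod (q := N) a.isUnit N
  refine ⟨p, hp, fun hdvd => ?_, ?_⟩
  · have := Nat.le_of_dvd (Nat.pos_of_ne_zero (NeZero.ne N)) hdvd
    omega
  · rw [hpa]; exact ha

end
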