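import Mathlib
import Fermat.Agent.DS.A.Defs

/-!
# DS-A, row A1: lifting `(ℤ/N)ˣ → Γ₀(N)` and normality of `Γ₁(N)` in `Γ₀(N)`
-/

set_option autoImplicit false

open CongruenceSubgroup ModularForm UpperHalfPlane
open scoped MatrixGroups ModularForm

noncomputable section

theorem dsa_det_eq (g : SL(2, ℤ)) : g 0 0 * g 1 1 - g 0 1 * g 1 0 = 1 := by
  have h := g.det_coe
  rwa [Matrix.det_fin_two] at h

theorem dsa_det_zmod (N : ℕ) (g : SL(2, ℤ)) :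
    ((g 0 0 : ℤ) : ZMod N) * ((g 1 1 : ℤ) : ZMod N) - ((g 0 1 : ℤ) : ZMod N) * ((g 1 0 : ℤ) : ZMod N)
      = 1 := by
  have := congrArg (Int.cast : ℤ → ZMod N) (dsa_det_eq g)
  push_cast at this
  exact this

/-- A1: every unit `d` mod `N` is the lower-right entry of some `γ ∈ Γ₀(N)` with `p ∣ γ₁₀`. -/
theorem dsa_lift (N p : ℕ) [NeZero N] (hp : p.Prime) (hpN : ¬ p ∣ N) (d : (ZMod N)ˣ) :
    ∃ γ : SL(2, ℤ), γ ∈ Gamma0 N ∧ ((γ 1 1 : ℤ) : ZMod N) = d ∧ (p : ℤ) ∣ γ 1 0 := by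
  have hco : N.Coprime p := ((Nat.Prime.coprime_iff_not_dvd hp).mpr hpN).symm
  obtain ⟨e, he1, he2⟩ := Nat.chineseRemainder hco (ZMod.val (d : ZMod N)) 1
  -- `e ≡ d (N)`, `e ≡ 1 (p)`
  have heN : ((e : ℕ) : ZMod N) = d := by
    have := (ZMod.natCast_eq_natCast_iff _ _ _).mpr he1
    rw [this, ZMod.natCast_zmod_val]
  have hcopN : e.Coprime N := by
    rw [← ZMod.isUnit_iff_coprime, heN]
    exact d.isUnit
  have hcopp : e.Coprime p := by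
    have := Nat.ModEq.gcd_eq he2
    rw [Nat.Coprime, this]
    simp
  have hcop : IsCoprime (e : ℤ) ((N : ℤ) * (p : ℤ)) :=
    IsCoprime.mul_right (Nat.isCoprime_iff_coprime.mpr hcopN) (Nat.isCoprime_iff_coprime.mpr hcopp)
  obtain ⟨u, v, huv⟩ := hcop
  have hdet : (!![u, -v; (N : ℤ) * p, (e : ℤ)] : Matrix (Fin 2) (Fin 2) ℤ).det = 1 := by
    rw [Matrix.det_fin_two_of]
    linear_combination huv
  let γ : SL(2, ℤ) := ⟨!![u, -v; (N : ℤ) * p, (e : ℤ)], hdet⟩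
  refine ⟨γ, ?_, ?_, ?_⟩
  · rw [Gamma0_mem]
    simp [γ]
  · simp [γ, heN]
  · exact ⟨N, by simp [γ, mul_comm]⟩

/-- A1 without the auxiliary prime. -/
theorem dsa_lift' (N : ℕ) [NeZero N] (d : (ZMod N)ˣ) :
    ∃ γ : SL(2, ℤ), γ ∈ Gamma0 N ∧ ((γ 1 1 : ℤ) : ZMod N) = d := by
  obtain ⟨p, hp, hpN⟩ : ∃ p : ℕ, p.Prime ∧ ¬ p ∣ N := by
    obtain ⟨p, hpgt, hp⟩ := Nat.exists_infinite_primes (N + 1)
    exact ⟨p, hp, fun h => by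
      have := Nat.le_of_dvd (Nat.pos_of_ne_zero (NeZero.ne N)) h
      omega⟩
  obtain ⟨γ, h1, h2, -⟩ := dsa_lift N p hp hpN d
  exact ⟨γ, h1, h2⟩

/-- A1': two elements of `Γ₀(N)` with the same lower-right entry mod `N` differ by `Γ₁(N)`. -/
theorem dsa_mul_inv_mem_Gamma1 (N : ℕ) [NeZero N] (γ γ' : SL(2, ℤ)) (hγ : γ ∈ Gamma0 N)
    (hγ' : γ' ∈ Gamma0 N) (h : ((γ 1 1 : ℤ) : ZMod N) = ((γ' 1 1 : ℤ) : ZMod N)) :
    γ * γ'⁻¹ ∈ Gamma1 N := by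
  rw [Gamma0_mem] at hγ hγ'
  have hd := dsa_det_zmod N γ
  have hd' := dsa_det_zmod N γ'
  rw [Gamma1_mem]
  simp only [Matrix.SpecialLinearGroup.coe_mul, Matrix.SpecialLinearGroup.coe_inv,
    Matrix.adjugate_fin_two, Matrix.mul_apply, Fin.sum_univ_two, Matrix.of_apply,
    Matrix.cons_val', Matrix.cons_val_zero, Matrix.cons_val_one, Matrix.empty_val',
    Matrix.cons_val_fin_one]
  push_cast
  refine ⟨?_, ?_, ?_⟩
  · linear_combination hd - ((γ 0 0 : ℤ) : ZMod N) * h + ((γ 0 1 : ℤ) : ZMod N) * hγ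
      - ((γ 0 1 : ℤ) : ZMod N) * hγ'
  · linear_combination hd' + ((γ' 0 0 : ℤ) : ZMod N) * h + ((γ' 0 1 : ℤ) : ZMod N) * hγ'
      - ((γ' 0 1 : ℤ) : ZMod N) * hγ
  · linear_combination ((γ' 1 1 : ℤ) : ZMod N) * hγ - ((γ 1 1 : ℤ) : ZMod N) * hγ'

/-- A1'': `Γ₁(N)` is normalised by `Γ₀(N)`. -/
theorem dsa_conj_mem_Gamma1 (N : ℕ) [NeZero N] (γ δ : SL(2, ℤ)) (hγ : γ ∈ Gamma0 N)
    (hδ : δ ∈ Gamma1 N) : γ * δ * γ⁻¹ ∈ Gamma1 N := by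
  have hδ0 : δ ∈ Gamma0 N := Gamma1_in_Gamma0 N hδ
  have h0 : γ * δ ∈ Gamma0 N := (Gamma0 N).mul_mem hγ hδ0
  refine dsa_mul_inv_mem_Gamma1 N (γ * δ) γ h0 hγ ?_
  rw [Gamma0_mem] at hγ
  rw [Gamma1_mem] at hδ
  obtain ⟨-, h11, h10⟩ := hδ
  simp only [Matrix.SpecialLinearGroup.coe_mul, Matrix.mul_apply, Fin.sum_univ_two]
  push_cast
  rw [h11, hγ]
  ring

end
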