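import Mathlib
import Fermat.Prelude.Sol.S_ModularForm_heckeT_slash_eq_self_of_mem_Gamma0
import Fermat.Agent.DS.A.Defs
import Fermat.Agent.DS.A.Lift

/-!
# DS-A, row A4: coset bookkeeping with the lower-right entries tracked

`T^χ g = U g + χ(p) • D g` preserves nebentypus `χ`.  This is the Prelude proof of
`ModularForm.heckeT_slash_eq_self_of_mem_Gamma0` with the `(1,1)` entries tracked.
-/

set_option autoImplicit false

open CongruenceSubgroup ModularForm UpperHalfPlane Matrix.SpecialLinearGroup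
open scoped MatrixGroups ModularForm OnePoint
open P2MW.S_ModularForm_heckeT_slash_eq_self_of_mem_Gamma0.ModularForm.HeckeSlashInvariance

noncomputable section

section commutation

variable {p : ℕ} (hp : p ≠ 0)
include hp

theorem dsa_heckeMatrix_mul_of_eq (g : SL(2, ℤ)) (j j' : ℕ) (e : ℤ)
    (he : g 0 1 + j * g 1 1 = j' * (g 0 0 + j * g 1 0) + p * e) :
    ∃ g' : SL(2, ℤ), g' 1 0 = p * g 1 0 ∧ g' 1 1 = g 1 1 - g 1 0 * j' ∧
      heckeMatrix p j * mapGL ℝ g = mapGL ℝ g' * heckeMatrix p j' := by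
  have hdet := dsa_det_eq g
  have hd : (!![g 0 0 + j * g 1 0, e; p * g 1 0, g 1 1 - g 1 0 * j'] :
      Matrix (Fin 2) (Fin 2) ℤ).det = 1 := by
    rw [Matrix.det_fin_two_of]
    linear_combination hdet + (g 1 0) * he
  refine ⟨⟨!![g 0 0 + j * g 1 0, e; p * g 1 0, g 1 1 - g 1 0 * j'], hd⟩, rfl, rfl, ?_⟩
  ext i j
  fin_cases i <;> fin_cases j <;>
    simp [hp, Matrix.mul_apply, Fin.sum_univ_two]
  all_goals first
    | (have := congrArg (Int.cast : ℤ → ℝ) he; push_cast at this ⊢; linear_combination this)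
    | (have := congrArg (Int.cast : ℤ → ℝ) he; push_cast at this ⊢; linear_combination -this)
    | ring1

theorem dsa_heckeMatrix_mul_of_eq' (g : SL(2, ℤ)) (j : ℕ) (e : ℤ)
    (he : g 0 0 + j * g 1 0 = p * e) :
    ∃ g' : SL(2, ℤ), g' 1 0 = g 1 0 ∧ g' 1 1 = p * g 1 1 ∧
      heckeMatrix p j * mapGL ℝ g = mapGL ℝ g' * heckeDiagMatrix p := by
  have hdet := dsa_det_eq g
  have hd : (!![e, g 0 1 + j * g 1 1; g 1 0, p * g 1 1] : Matrix (Fin 2) (Fin 2) ℤ).det = 1 := by
    rw [Matrix.det_fin_two_of]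
    linear_combination hdet - (g 1 1) * he
  refine ⟨⟨!![e, g 0 1 + j * g 1 1; g 1 0, p * g 1 1], hd⟩, rfl, rfl, ?_⟩
  ext i j
  fin_cases i <;> fin_cases j <;>
    simp [hp, Matrix.mul_apply, Fin.sum_univ_two]
  all_goals first
    | (have := congrArg (Int.cast : ℤ → ℝ) he; push_cast at this ⊢; linear_combination this)
    | (have := congrArg (Int.cast : ℤ → ℝ) he; push_cast at this ⊢; linear_combination -this)
    | ring1

theorem dsa_heckeDiagMatrix_mul_of_eq (g : SL(2, ℤ)) (j' : ℕ) (e : ℤ)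
    (he : g 1 1 = g 1 0 * j' + p * e) :
    ∃ g' : SL(2, ℤ), g' 1 0 = g 1 0 ∧ g' 1 1 = e ∧
      heckeDiagMatrix p * mapGL ℝ g = mapGL ℝ g' * heckeMatrix p j' := by
  have hdet := dsa_det_eq g
  have hd : (!![p * g 0 0, g 0 1 - g 0 0 * j'; g 1 0, e] : Matrix (Fin 2) (Fin 2) ℤ).det = 1 := by
    rw [Matrix.det_fin_two_of]
    linear_combination hdet - (g 0 0) * he
  refine ⟨⟨!![p * g 0 0, g 0 1 - g 0 0 * j'; g 1 0, e], hd⟩, rfl, rfl, ?_⟩
  ext i j
  fin_cases i <;> fin_cases j <;>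
    simp [hp, Matrix.mul_apply, Fin.sum_univ_two]
  all_goals first
    | (have := congrArg (Int.cast : ℤ → ℝ) he; push_cast at this ⊢; linear_combination this)
    | (have := congrArg (Int.cast : ℤ → ℝ) he; push_cast at this ⊢; linear_combination -this)
    | ring1

theorem dsa_heckeDiagMatrix_mul_of_eq' (g : SL(2, ℤ)) (e : ℤ) (he : g 1 0 = p * e) :
    ∃ g' : SL(2, ℤ), g' 1 0 = e ∧ g' 1 1 = g 1 1 ∧
      heckeDiagMatrix p * mapGL ℝ g = mapGL ℝ g' * heckeDiagMatrix p := by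
  have hdet := dsa_det_eq g
  have hd : (!![g 0 0, p * g 0 1; e, g 1 1] : Matrix (Fin 2) (Fin 2) ℤ).det = 1 := by
    rw [Matrix.det_fin_two_of]
    linear_combination hdet + (g 0 1) * he
  refine ⟨⟨!![g 0 0, p * g 0 1; e, g 1 1], hd⟩, rfl, rfl, ?_⟩
  ext i j
  fin_cases i <;> fin_cases j <;>
    simp [hp, Matrix.mul_apply, Fin.sum_univ_two]
  all_goals first
    | (have := congrArg (Int.cast : ℤ → ℝ) he; push_cast at this ⊢; linear_combination this)
    | (have := congrArg (Int.cast : ℤ → ℝ) he; push_cast at this ⊢; linear_combination -this)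
    | ring1

end commutation

section tracking

variable {p : ℕ} [Fact p.Prime]

/-- The weight of a coset representative: `p` for `β_∞ = diag(p,1)`, `1` for `β_j`. -/
def dsa_wt (N p : ℕ) (x : OnePoint (ZMod p)) : ZMod N := x.elim (p : ZMod N) (fun _ => 1)

@[simp] theorem dsa_wt_infty (N p : ℕ) : dsa_wt N p (∞ : OnePoint (ZMod p)) = (p : ZMod N) := rfl

@[simp] theorem dsa_wt_coe (N p : ℕ) (j : ZMod p) : dsa_wt N p (j : OnePoint (ZMod p)) = 1 := rfl

/-- Tracked version of the Prelude `heckeRep_mul`. -/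
theorem dsa_heckeRep_mul {N : ℕ} (hpN : ¬ p ∣ N) (g : SL(2, ℤ)) (hg : (N : ℤ) ∣ g 1 0)
    (x : OnePoint (ZMod p)) :
    ∃ g' : SL(2, ℤ), (N : ℤ) ∣ g' 1 0 ∧
      dsa_wt N p x * ((g' 1 1 : ℤ) : ZMod N) =
        dsa_wt N p (redMatrix p g • x) * ((g 1 1 : ℤ) : ZMod N) ∧
      heckeRep p x * mapGL ℝ g = mapGL ℝ g' * heckeRep p (redMatrix p g • x) := by
  have hp : p ≠ 0 := (Fact.out : p.Prime).ne_zero
  have hg0 : ((g 1 0 : ℤ) : ZMod N) = 0 := (ZMod.intCast_zmod_eq_zero_iff_dvd _ _).mpr hg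
  induction x using OnePoint.rec with
  | infty =>
    rw [OnePoint.smul_infty_eq_ite]
    by_cases hc : ((g 1 0 : ℤ) : ZMod p) = 0
    · rw [if_pos (by simpa using hc), heckeRep_infty]
      obtain ⟨e, he⟩ := (ZMod.intCast_zmod_eq_zero_iff_dvd _ _).mp hc
      obtain ⟨g', hg', hg'', hmul⟩ := dsa_heckeDiagMatrix_mul_of_eq' hp g e he
      refine ⟨g', ?_, ?_, hmul⟩
      · rw [hg']
        have hcop : IsCoprime (N : ℤ) (p : ℤ) :=
          Nat.isCoprime_iff_coprime.mpr ((Nat.Prime.coprime_iff_not_dvd Fact.out).mpr hpN).symm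
        exact hcop.dvd_of_dvd_mul_left (he ▸ hg)
      · rw [hg'']
    · rw [if_neg (by simpa using hc), heckeRep_infty, heckeRep_coe]
      set y : ZMod p := redMatrix p g 0 0 / redMatrix p g 1 0 with hy
      obtain ⟨e, he⟩ : (p : ℤ) ∣ g 1 1 - g 1 0 * y.val := by
        rw [← ZMod.intCast_zmod_eq_zero_iff_dvd]
        push_cast
        rw [ZMod.natCast_zmod_val, hy, redMatrix_apply_zero_zero, redMatrix_apply_one_zero,
          mul_div_cancel₀ _ hc, sub_self]
      obtain ⟨g', hg', hg'', hmul⟩ :=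
        dsa_heckeDiagMatrix_mul_of_eq hp g y.val e (by linear_combination he)
      refine ⟨g', hg' ▸ hg, ?_, hmul⟩
      rw [hg'', dsa_wt_infty, dsa_wt_coe, one_mul]
      have := congrArg (Int.cast : ℤ → ZMod N) he
      push_cast at this
      rw [hg0] at this
      linear_combination -this
  | coe j =>
    rw [OnePoint.smul_some_eq_ite]
    by_cases h : redMatrix p g 1 0 * j + redMatrix p g 1 1 = 0
    · rw [if_pos h, heckeRep_infty, heckeRep_coe]
      rw [redMatrix_apply_one_zero, redMatrix_apply_one_one] at h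
      obtain ⟨e, he⟩ : (p : ℤ) ∣ g 0 0 + j.val * g 1 0 := by
        rw [← ZMod.intCast_zmod_eq_zero_iff_dvd]
        push_cast
        rw [ZMod.natCast_zmod_val]
        linear_combination h
      obtain ⟨g', hg', hg'', hmul⟩ := dsa_heckeMatrix_mul_of_eq' hp g j.val e he
      refine ⟨g', hg' ▸ hg, ?_, hmul⟩
      rw [hg'', dsa_wt_infty, dsa_wt_coe, one_mul]
      push_cast
      rfl
    · rw [if_neg h, heckeRep_coe, heckeRep_coe]
      set y : ZMod p := (redMatrix p g 0 0 * j + redMatrix p g 0 1) /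
        (redMatrix p g 1 0 * j + redMatrix p g 1 1) with hy
      obtain ⟨e, he⟩ : (p : ℤ) ∣ g 0 1 + j.val * g 1 1 - y.val * (g 0 0 + j.val * g 1 0) := by
        rw [← ZMod.intCast_zmod_eq_zero_iff_dvd]
        push_cast
        rw [ZMod.natCast_zmod_val, ZMod.natCast_zmod_val,
          show ((g 0 0 : ℤ) : ZMod p) + j * ((g 1 0 : ℤ) : ZMod p)
            = redMatrix p g 1 0 * j + redMatrix p g 1 1 by
              rw [redMatrix_apply_one_zero, redMatrix_apply_one_one]; ring,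
          hy, div_mul_cancel₀ _ h, redMatrix_apply_zero_zero, redMatrix_apply_zero_one]
        ring
      obtain ⟨g', hg', hg'', hmul⟩ :=
        dsa_heckeMatrix_mul_of_eq hp g j.val y.val e (by linear_combination he)
      refine ⟨g', hg' ▸ dvd_mul_of_dvd_right hg _, ?_, hmul⟩
      rw [hg'', dsa_wt_coe, dsa_wt_coe, one_mul, one_mul]
      push_cast
      rw [hg0]
      ring

end tracking

section main

variable {p : ℕ}

theorem dsa_σ_heckeRep (x : OnePoint (ZMod p)) : UpperHalfPlane.σ (heckeRep p x) = .refl ℝ ℂ := by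
  induction x using OnePoint.rec with
  | infty => exact σ_heckeDiagMatrix p
  | coe j => exact σ_heckeMatrix p j.val

theorem dsa_smul_slash_heckeRep (k : ℤ) (x : OnePoint (ZMod p)) (c : ℂ) (f : ℍ → ℂ) :
    (c • f) ∣[k] heckeRep p x = c • (f ∣[k] heckeRep p x) := by
  rw [ModularForm.smul_slash, dsa_σ_heckeRep, ContinuousAlgEquiv.refl_apply]

/-- the coefficient of the coset representative `β_x` in `T^c`. -/
def dsa_coef (c : ℂ) (x : OnePoint (ZMod p)) : ℂ := x.elim c (fun _ => 1)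

theorem dsa_T_eq_sum_onePoint [NeZero p] (k : ℤ) (c : ℂ) (f : ℍ → ℂ) :
    dsa_T k p c f = ∑ x : OnePoint (ZMod p), dsa_coef c x • (f ∣[k] heckeRep p x) := by
  rw [dsa_T, dsa_D, heckeU_eq_sum_zmod]
  refine Eq.trans ?_
    (Fintype.sum_option (fun x : OnePoint (ZMod p) ↦ dsa_coef c x • (f ∣[k] heckeRep p x))).symm
  rw [add_comm]
  congr 1
  refine Finset.sum_congr rfl fun x _ => ?_
  show f ∣[k] heckeMatrix p x.val = (1 : ℂ) • (f ∣[k] heckeMatrix p x.val)
  rw [one_smul]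

theorem dsa_coef_eq (N : ℕ) (χ : DirichletCharacter ℂ N) (x : OnePoint (ZMod p)) :
    dsa_coef (χ (p : ZMod N)) x = χ (dsa_wt N p x) := by
  induction x using OnePoint.rec with
  | infty => rfl
  | coe j => simp [dsa_coef, dsa_wt]

/-- A4: `T^χ` preserves nebentypus `χ`. -/
theorem dsa_T_neben (N : ℕ) [NeZero N] (k : ℤ) (p : ℕ) (hp : p.Prime) (hpN : ¬ p ∣ N)
    (χ : DirichletCharacter ℂ N) (g : ℍ → ℂ) (hg : dsa_Neben N k χ g) :
    dsa_Neben N k χ (dsa_T k p (χ (p : ZMod N)) g) := by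
  have : Fact p.Prime := ⟨hp⟩
  intro γ hγ
  have hcN : (N : ℤ) ∣ γ 1 0 :=
    (ZMod.intCast_zmod_eq_zero_iff_dvd _ _).mp (Gamma0_mem.mp hγ)
  rw [dsa_T_eq_sum_onePoint, ModularForm.SL_slash, SlashAction.sum_slash, Finset.smul_sum]
  calc ∑ x : OnePoint (ZMod p), (dsa_coef (χ (p : ZMod N)) x • (g ∣[k] heckeRep p x)) ∣[k] mapGL ℝ γ
      = ∑ x : OnePoint (ZMod p), χ ((γ 1 1 : ℤ) : ZMod N) •
          (dsa_coef (χ (p : ZMod N)) (redMatrix p γ • x) • (g ∣[k] heckeRep p (redMatrix p γ • x))) := by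
        refine Finset.sum_congr rfl fun x _ ↦ ?_
        obtain ⟨g', hg', hd, hmul⟩ := dsa_heckeRep_mul hpN γ hcN x
        have hg'N : g' ∈ Gamma0 N :=
          Gamma0_mem.mpr ((ZMod.intCast_zmod_eq_zero_iff_dvd _ _).mpr hg')
        have h1 : g ∣[k] mapGL ℝ g' = χ ((g' 1 1 : ℤ) : ZMod N) • g := hg g' hg'N
        have h2 : (dsa_coef (χ (p : ZMod N)) x • (g ∣[k] heckeRep p x)) ∣[k] mapGL ℝ γ
            = dsa_coef (χ (p : ZMod N)) x • ((g ∣[k] heckeRep p x) ∣[k] mapGL ℝ γ) :=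
          ModularForm.SL_smul_slash k γ (g ∣[k] heckeRep p x) (dsa_coef (χ (p : ZMod N)) x)
        rw [h2, ← SlashAction.slash_mul, hmul, SlashAction.slash_mul, h1,
          dsa_smul_slash_heckeRep, smul_smul, smul_smul, dsa_coef_eq, dsa_coef_eq, ← map_mul,
          ← map_mul, hd, mul_comm]
    _ = ∑ x : OnePoint (ZMod p), χ ((γ 1 1 : ℤ) : ZMod N) •
          (dsa_coef (χ (p : ZMod N)) x • (g ∣[k] heckeRep p x)) :=
        Equiv.sum_comp (MulAction.toPerm (redMatrix p γ))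
          (fun x ↦ χ ((γ 1 1 : ℤ) : ZMod N) • (dsa_coef (χ (p : ZMod N)) x • (g ∣[k] heckeRep p x)))

end main

end
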