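import Mathlib
import Fermat.Agent.DS.A.Defs
import Fermat.Agent.DS.A.Lift

/-!
# DS-A, row A2: diamond operators on `CuspForm (Gamma1 N) k`
-/

set_option autoImplicit false

open CongruenceSubgroup ModularForm UpperHalfPlane Matrix.SpecialLinearGroup
open scoped MatrixGroups ModularForm Manifold

noncomputable section

/-- Constructor: a `Γ₁(N)`-invariant holomorphic function vanishing at all rational cusps is a cusp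
form of level `Γ₁(N)`. -/
def dsa_mkCusp (N : ℕ) [NeZero N] (k : ℤ) (g : ℍ → ℂ) (hinv : dsa_Inv1 N k g) (hhol : MDiff g)
    (hz : ∀ c : OnePoint ℝ, IsCusp c 𝒮ℒ → c.IsZeroAt g k) : CuspForm (Gamma1 N) k where
  toFun := g
  slash_action_eq' := by
    intro γ hγ
    obtain ⟨γ0, hγ0, rfl⟩ := hγ
    exact hinv γ0 hγ0
  holo' := hhol
  zero_at_cusps' := fun hc => hz _ ((Subgroup.IsArithmetic.isCusp_iff_isCusp_SL2Z _).mp hc)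

@[simp] theorem dsa_mkCusp_coe (N : ℕ) [NeZero N] (k : ℤ) (g : ℍ → ℂ) (hinv : dsa_Inv1 N k g) (hhol : MDiff g)
    (hz : ∀ c : OnePoint ℝ, IsCusp c 𝒮ℒ → c.IsZeroAt g k) :
    ⇑(dsa_mkCusp N k g hinv hhol hz) = g := rfl

/-- The underlying function of a cusp form of level `Γ₁(N)` is `Γ₁(N)`-invariant. -/
theorem dsa_inv1_coe (N : ℕ) (k : ℤ) (f : CuspForm (Gamma1 N) k) : dsa_Inv1 N k ⇑f := by
  intro γ hγ
  exact SlashInvariantFormClass.slash_action_eq f _ (Subgroup.mem_map_of_mem (mapGL ℝ) hγ)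

/-- A cusp form of level `Γ₁(N)` vanishes at all rational cusps. -/
theorem dsa_zero_at_coe (N : ℕ) [NeZero N] (k : ℤ) (f : CuspForm (Gamma1 N) k) (c : OnePoint ℝ)
    (hc : IsCusp c 𝒮ℒ) : c.IsZeroAt ⇑f k :=
  CuspFormClass.zero_at_cusps f ((Subgroup.IsArithmetic.isCusp_iff_isCusp_SL2Z _).mpr hc)

/-- Slash by `γ ∈ Γ₀(N)` preserves `Γ₁(N)`-invariance. -/
theorem dsa_inv1_slash (N : ℕ) [NeZero N] (k : ℤ) (γ : SL(2, ℤ)) (hγ : γ ∈ Gamma0 N) (g : ℍ → ℂ)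
    (hg : dsa_Inv1 N k g) : dsa_Inv1 N k (g ∣[k] γ) := by
  intro δ hδ
  have h1 : γ * δ = (γ * δ * γ⁻¹) * γ := by group
  rw [← SlashAction.slash_mul, h1, SlashAction.slash_mul, hg _ (dsa_conj_mem_Gamma1 N γ δ hγ hδ)]

/-- Slash by an element of `SL(2,ℤ)` preserves vanishing at all rational cusps. -/
theorem dsa_zero_at_slash (k : ℤ) (γ : SL(2, ℤ)) (g : ℍ → ℂ)
    (hg : ∀ c : OnePoint ℝ, IsCusp c 𝒮ℒ → c.IsZeroAt g k) (c : OnePoint ℝ) (hc : IsCusp c 𝒮ℒ) :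
    c.IsZeroAt (g ∣[k] γ) k := by
  rw [ModularForm.SL_slash, ← OnePoint.IsZeroAt.smul_iff]
  exact hg _ (hc.smul_of_mem ⟨γ, rfl⟩)

/-- Slash by `γ ∈ Γ₀(N)` as a map `S_k(Γ₁(N)) → S_k(Γ₁(N))`. -/
def dsa_slashForm (N : ℕ) [NeZero N] (k : ℤ) (γ : SL(2, ℤ)) (hγ : γ ∈ Gamma0 N)
    (f : CuspForm (Gamma1 N) k) : CuspForm (Gamma1 N) k :=
  dsa_mkCusp N k (⇑f ∣[k] γ) (dsa_inv1_slash N k γ hγ ⇑f (dsa_inv1_coe N k f))
    (by rw [ModularForm.SL_slash]; exact (CuspFormClass.holo f).slash k _)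
    (dsa_zero_at_slash k γ ⇑f (dsa_zero_at_coe N k f))

@[simp] theorem dsa_slashForm_coe (N : ℕ) [NeZero N] (k : ℤ) (γ : SL(2, ℤ)) (hγ : γ ∈ Gamma0 N)
    (f : CuspForm (Gamma1 N) k) : ⇑(dsa_slashForm N k γ hγ f) = ⇑f ∣[k] γ := rfl

/-- A2. -/
theorem dsa_exists_slash (N : ℕ) [NeZero N] (k : ℤ) (γ : SL(2, ℤ)) (hγ : γ ∈ Gamma0 N)
    (f : CuspForm (Gamma1 N) k) : ∃ F : CuspForm (Gamma1 N) k, ⇑F = ⇑f ∣[k] γ :=
  ⟨dsa_slashForm N k γ hγ f, rfl⟩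

/-- The slash by `γ ∈ Γ₀(N)` of a `Γ₁(N)`-invariant function only depends on `d_γ mod N`. -/
theorem dsa_slash_eq_of_eq (N : ℕ) [NeZero N] (k : ℤ) (γ γ' : SL(2, ℤ)) (hγ : γ ∈ Gamma0 N)
    (hγ' : γ' ∈ Gamma0 N) (h : ((γ 1 1 : ℤ) : ZMod N) = ((γ' 1 1 : ℤ) : ZMod N)) (g : ℍ → ℂ)
    (hg : dsa_Inv1 N k g) : g ∣[k] γ = g ∣[k] γ' := by
  have h1 : γ = (γ * γ'⁻¹) * γ' := by group
  rw [h1, SlashAction.slash_mul, hg _ (dsa_mul_inv_mem_Gamma1 N γ γ' hγ hγ' h)]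

/-- The chosen lift of `d ∈ (ℤ/N)ˣ` to `Γ₀(N)`. -/
def dsa_liftElt (N : ℕ) [NeZero N] (d : (ZMod N)ˣ) : SL(2, ℤ) := Classical.choose (dsa_lift' N d)

theorem dsa_liftElt_mem (N : ℕ) [NeZero N] (d : (ZMod N)ˣ) : dsa_liftElt N d ∈ Gamma0 N :=
  (Classical.choose_spec (dsa_lift' N d)).1

theorem dsa_liftElt_d (N : ℕ) [NeZero N] (d : (ZMod N)ˣ) :
    ((dsa_liftElt N d 1 1 : ℤ) : ZMod N) = d :=
  (Classical.choose_spec (dsa_lift' N d)).2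

/-- The diamond operator `⟨d⟩` on `S_k(Γ₁(N))`. -/
def dsa_diamond (N : ℕ) [NeZero N] (k : ℤ) (d : (ZMod N)ˣ) :
    CuspForm (Gamma1 N) k →ₗ[ℂ] CuspForm (Gamma1 N) k where
  toFun f := dsa_slashForm N k (dsa_liftElt N d) (dsa_liftElt_mem N d) f
  map_add' f g := by
    apply DFunLike.coe_injective
    show (⇑(f + g)) ∣[k] (dsa_liftElt N d) = ⇑f ∣[k] (dsa_liftElt N d) + ⇑g ∣[k] (dsa_liftElt N d)
    rw [← SlashAction.add_slash]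
    rfl
  map_smul' c f := by
    apply DFunLike.coe_injective
    show (⇑(c • f)) ∣[k] (dsa_liftElt N d) = c • (⇑f ∣[k] (dsa_liftElt N d))
    rw [← ModularForm.SL_smul_slash]
    rfl

/-- Characterisation of the diamond operator. -/
theorem dsa_diamond_coe (N : ℕ) [NeZero N] (k : ℤ) (d : (ZMod N)ˣ) (f : CuspForm (Gamma1 N) k)
    (γ : SL(2, ℤ)) (hγ : γ ∈ Gamma0 N) (hd : ((γ 1 1 : ℤ) : ZMod N) = d) :
    ⇑(dsa_diamond N k d f) = ⇑f ∣[k] γ := by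
  show ⇑f ∣[k] (dsa_liftElt N d) = ⇑f ∣[k] γ
  exact dsa_slash_eq_of_eq N k _ _ (dsa_liftElt_mem N d) hγ
    ((dsa_liftElt_d N d).trans hd.symm) ⇑f (dsa_inv1_coe N k f)

/-- A2'. -/
theorem dsa_exists_diamond (N : ℕ) [NeZero N] (k : ℤ) (d : (ZMod N)ˣ) :
    ∃ L : CuspForm (Gamma1 N) k →ₗ[ℂ] CuspForm (Gamma1 N) k,
      ∀ (f : CuspForm (Gamma1 N) k) (γ : SL(2, ℤ)), γ ∈ Gamma0 N →
        ((γ 1 1 : ℤ) : ZMod N) = d → ⇑(L f) = ⇑f ∣[k] γ :=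
  ⟨dsa_diamond N k d, fun f γ hγ hd => dsa_diamond_coe N k d f γ hγ hd⟩

end
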