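import Mathlib
import Fermat.Prelude.Sol.S_UpperHalfPlane_qCoeff_heckeT
import Fermat.Agent.DS.A.Defs
import Fermat.Agent.DS.A.Lift
import Fermat.Agent.DS.A.Diamond
import Fermat.Agent.DS.A.Coset

/-!
# DS-A, rows A6 and A7: `U D = p^(k-1)` and `D` commutes with the nebentypus
-/

set_option autoImplicit false

open CongruenceSubgroup ModularForm UpperHalfPlane Matrix.SpecialLinearGroup
open scoped MatrixGroups ModularForm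

noncomputable section

theorem dsa_D_apply (k : ℤ) {p : ℕ} (hp : p ≠ 0) (g : ℍ → ℂ) (τ : ℍ) :
    dsa_D k p g τ = (p : ℂ) ^ (k - 1) * g (heckeDiagMatrix p • τ) :=
  slash_heckeDiagMatrix_apply k hp g τ

/-- A6: `U D = p^(k-1)` on `1`-periodic functions. -/
theorem dsa_U_D (k : ℤ) (p : ℕ) (hp : p ≠ 0) (g : ℍ → ℂ)
    (hper : Function.Periodic (g ∘ UpperHalfPlane.ofComplex) 1) :
    heckeU k p (dsa_D k p g) = (p : ℂ) ^ (k - 1) • g := by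
  have hp' : (p : ℂ) ≠ 0 := by exact_mod_cast hp
  funext τ
  rw [heckeU_apply k hp, Pi.smul_apply, smul_eq_mul]
  have h1 : ∀ j ∈ Finset.range p, dsa_D k p g (heckeMatrix p j • τ) = (p : ℂ) ^ (k - 1) * g τ := by
    intro j _
    rw [dsa_D_apply k hp]
    congr 1
    refine P2MW.S_UpperHalfPlane_qCoeff_heckeT.M4cP1W2.apply_eq_of_coe_eq_add_nat hper j ?_
    rw [coe_heckeDiagMatrix_smul hp, coe_heckeMatrix_smul hp]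
    field_simp
  rw [Finset.sum_congr rfl h1, Finset.sum_const, Finset.card_range, nsmul_eq_mul]
  field_simp

/-- the unit `d_γ mod N` of `γ ∈ Γ₀(N)`. -/
def dsa_unitOf (N : ℕ) (γ : SL(2, ℤ)) (hγ : γ ∈ Gamma0 N) : (ZMod N)ˣ :=
  Units.mkOfMulEqOne ((γ 1 1 : ℤ) : ZMod N) ((γ 0 0 : ℤ) : ZMod N) (by
    have h := dsa_det_zmod N γ
    rw [Gamma0_mem] at hγ
    rw [hγ, mul_zero, sub_zero] at h
    rw [mul_comm]; exact h)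

@[simp] theorem dsa_unitOf_val (N : ℕ) (γ : SL(2, ℤ)) (hγ : γ ∈ Gamma0 N) :
    ((dsa_unitOf N γ hγ : (ZMod N)ˣ) : ZMod N) = ((γ 1 1 : ℤ) : ZMod N) := rfl

/-- matrix identity behind A7: for `γ₂ ∈ Γ₀(N)` with `p ∣ c`, `D (g ∣ γ₂') = (D g) ∣ γ₂` with
`γ₂' ∈ Γ₀(N)`, same lower-right entry. -/
theorem dsa_D_slash (N : ℕ) (k : ℤ) (p : ℕ) (hp : p.Prime) (hpN : ¬ p ∣ N) (γ₂ : SL(2, ℤ))
    (hγ₂ : γ₂ ∈ Gamma0 N) (hpc : (p : ℤ) ∣ γ₂ 1 0) :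
    ∃ γ₂' : SL(2, ℤ), γ₂' ∈ Gamma0 N ∧ γ₂' 1 1 = γ₂ 1 1 ∧
      ∀ g : ℍ → ℂ, (dsa_D k p g) ∣[k] γ₂ = dsa_D k p (g ∣[k] γ₂') := by
  obtain ⟨e, he⟩ := hpc
  obtain ⟨g', hg', hg'', hmul⟩ := dsa_heckeDiagMatrix_mul_of_eq' hp.ne_zero γ₂ e he
  have hcN : (N : ℤ) ∣ γ₂ 1 0 :=
    (ZMod.intCast_zmod_eq_zero_iff_dvd _ _).mp (Gamma0_mem.mp hγ₂)
  have hcop : IsCoprime (N : ℤ) (p : ℤ) :=
    Nat.isCoprime_iff_coprime.mpr ((Nat.Prime.coprime_iff_not_dvd hp).mpr hpN).symm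
  refine ⟨g', ?_, hg'', fun g => ?_⟩
  · rw [Gamma0_mem, hg']
    exact (ZMod.intCast_zmod_eq_zero_iff_dvd _ _).mpr (hcop.dvd_of_dvd_mul_left (he ▸ hcN))
  · show (g ∣[k] heckeDiagMatrix p) ∣[k] mapGL ℝ γ₂ = (g ∣[k] mapGL ℝ g') ∣[k] heckeDiagMatrix p
    rw [← SlashAction.slash_mul, hmul, SlashAction.slash_mul]

theorem dsa_smul_D (k : ℤ) (p : ℕ) (c : ℂ) (g : ℍ → ℂ) : dsa_D k p (c • g) = c • dsa_D k p g := by
  rw [dsa_D, dsa_D, ModularForm.smul_slash, σ_heckeDiagMatrix, ContinuousAlgEquiv.refl_apply]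

theorem dsa_add_D (k : ℤ) (p : ℕ) (g h : ℍ → ℂ) :
    dsa_D k p (g + h) = dsa_D k p g + dsa_D k p h := by
  rw [dsa_D, dsa_D, dsa_D, SlashAction.add_slash]

/-- A7 (COMM): if `g` has nebentypus `χ` and `D g` is `Γ₁(N)`-invariant then `D g` has
nebentypus `χ`. -/
theorem dsa_D_neben (N : ℕ) [NeZero N] (k : ℤ) (p : ℕ) (hp : p.Prime) (hpN : ¬ p ∣ N)
    (χ : DirichletCharacter ℂ N) (g : ℍ → ℂ) (hg : dsa_Neben N k χ g)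
    (hD : dsa_Inv1 N k (dsa_D k p g)) : dsa_Neben N k χ (dsa_D k p g) := by
  intro γ hγ
  obtain ⟨γ₂, hγ₂, hd₂, hpc⟩ := dsa_lift N p hp hpN (dsa_unitOf N γ hγ)
  rw [dsa_unitOf_val] at hd₂
  rw [dsa_slash_eq_of_eq N k γ γ₂ hγ hγ₂ hd₂.symm _ hD]
  obtain ⟨γ₂', hγ₂', hd₂', hsl⟩ := dsa_D_slash N k p hp hpN γ₂ hγ₂ hpc
  rw [hsl g, hg γ₂' hγ₂', dsa_smul_D, hd₂', hd₂]

end
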