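import Mathlib
import Fermat.Prelude.Sol.S_CuspFormClass_isZeroAt_heckeT
import Fermat.Prelude.Thm_ModularForm_mdifferentiable_heckeU
import Fermat.Agent.DS.A.Defs
import Fermat.Agent.DS.A.Lift
import Fermat.Agent.DS.A.Diamond
import Fermat.Agent.DS.A.Coset
import Fermat.Agent.DS.A.DComm

/-!
# DS-A, row A5: regularity of `U`, `D`, `T^c` at function level
-/

set_option autoImplicit false

open CongruenceSubgroup ModularForm UpperHalfPlane Matrix.SpecialLinearGroup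
open scoped MatrixGroups ModularForm Manifold

noncomputable section

/-- `g` is holomorphic on `ℍ` and vanishes at all rational cusps. -/
def dsa_Reg (k : ℤ) (g : ℍ → ℂ) : Prop :=
  MDiff g ∧ ∀ c : OnePoint ℝ, IsCusp c 𝒮ℒ → c.IsZeroAt g k

theorem dsa_reg_coe (N : ℕ) [NeZero N] (k : ℤ) (f : CuspForm (Gamma1 N) k) : dsa_Reg k ⇑f :=
  ⟨CuspFormClass.holo f, dsa_zero_at_coe N k f⟩

theorem dsa_isZeroAt_smul {c : OnePoint ℝ} {k : ℤ} {g : ℍ → ℂ} (a : ℂ) (hg : c.IsZeroAt g k) :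
    c.IsZeroAt (a • g) k := by
  intro γ hγ
  rw [ModularForm.smul_slash]
  exact (hg γ hγ).smul _

theorem dsa_reg_add {k : ℤ} {g h : ℍ → ℂ} (hg : dsa_Reg k g) (hh : dsa_Reg k h) :
    dsa_Reg k (g + h) :=
  ⟨hg.1.add hh.1, fun c hc => (hg.2 c hc).add (hh.2 c hc)⟩

theorem dsa_reg_smul {k : ℤ} {g : ℍ → ℂ} (a : ℂ) (hg : dsa_Reg k g) : dsa_Reg k (a • g) :=
  ⟨hg.1.const_smul a, fun c hc => dsa_isZeroAt_smul a (hg.2 c hc)⟩

theorem dsa_reg_sub {k : ℤ} {g h : ℍ → ℂ} (hg : dsa_Reg k g) (hh : dsa_Reg k h) :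
    dsa_Reg k (g - h) := by
  have : g - h = g + (-1 : ℂ) • h := by rw [neg_one_smul, sub_eq_add_neg]
  rw [this]
  exact dsa_reg_add hg (dsa_reg_smul _ hh)

theorem dsa_reg_sum {ι : Type*} {k : ℤ} (s : Finset ι) {g : ι → ℍ → ℂ}
    (hg : ∀ i ∈ s, dsa_Reg k (g i)) : dsa_Reg k (∑ i ∈ s, g i) := by
  classical
  induction s using Finset.induction_on with
  | empty =>
    rw [Finset.sum_empty]
    refine ⟨mdifferentiable_const, fun c _ γ _ => ?_⟩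
    rw [SlashAction.zero_slash]
    exact Filter.zero_zeroAtFilter _
  | insert a s ha ih =>
    rw [Finset.sum_insert ha]
    exact dsa_reg_add (hg a (Finset.mem_insert_self a s))
      (ih fun i hi => hg i (Finset.mem_insert_of_mem hi))

/-- slash by a rational matrix preserves `dsa_Reg`. -/
theorem dsa_reg_slash_rat {k : ℤ} {g : ℍ → ℂ} (hg : dsa_Reg k g) (A : GL (Fin 2) ℚ) :
    dsa_Reg k (g ∣[k] (Matrix.GeneralLinearGroup.map (Rat.castHom ℝ) A)) := by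
  refine ⟨hg.1.slash k _, fun c hc => ?_⟩
  rw [← OnePoint.IsZeroAt.smul_iff]
  exact hg.2 _
    (P2MW.S_CuspFormClass_isZeroAt_heckeT.ModularForm.S06W2.isCusp_ratCast_smul hc A)

theorem dsa_reg_D {k : ℤ} (p : ℕ) {g : ℍ → ℂ} (hg : dsa_Reg k g) : dsa_Reg k (dsa_D k p g) := by
  obtain ⟨A, hA⟩ :=
    P2MW.S_CuspFormClass_isZeroAt_heckeT.ModularForm.S06W2.exists_heckeDiagMatrix_eq_map p
  rw [dsa_D, hA]
  exact dsa_reg_slash_rat hg A

theorem dsa_reg_U {k : ℤ} (p : ℕ) {g : ℍ → ℂ} (hg : dsa_Reg k g) : dsa_Reg k (heckeU k p g) := by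
  rw [heckeU_def]
  refine dsa_reg_sum _ fun j _ => ?_
  obtain ⟨A, hA⟩ :=
    P2MW.S_CuspFormClass_isZeroAt_heckeT.ModularForm.S06W2.exists_heckeMatrix_eq_map p j
  rw [hA]
  exact dsa_reg_slash_rat hg A

theorem dsa_reg_T {k : ℤ} (p : ℕ) (c : ℂ) {g : ℍ → ℂ} (hg : dsa_Reg k g) :
    dsa_Reg k (dsa_T k p c g) :=
  dsa_reg_add (dsa_reg_U p hg) (dsa_reg_smul c (dsa_reg_D p hg))

theorem dsa_reg_D_iter {k : ℤ} (p : ℕ) (m : ℕ) {g : ℍ → ℂ} (hg : dsa_Reg k g) :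
    dsa_Reg k ((dsa_D k p)^[m] g) := by
  induction m with
  | zero => exact hg
  | succ m ih =>
    rw [Function.iterate_succ_apply']
    exact dsa_reg_D p ih

/-- nebentypus implies `Γ₁(N)`-invariance. -/
theorem dsa_inv1_of_neben (N : ℕ) (k : ℤ) (χ : DirichletCharacter ℂ N) (g : ℍ → ℂ)
    (hg : dsa_Neben N k χ g) : dsa_Inv1 N k g := by
  intro γ hγ
  rw [hg γ (Gamma1_in_Gamma0 N hγ), ((Gamma1_mem N γ).mp hγ).2.1, map_one, one_smul]

/-- Build a cusp form of level `Γ₁(N)` from a regular invariant function. -/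
def dsa_mkCusp' (N : ℕ) [NeZero N] (k : ℤ) (g : ℍ → ℂ) (hinv : dsa_Inv1 N k g)
    (hreg : dsa_Reg k g) : CuspForm (Gamma1 N) k :=
  dsa_mkCusp N k g hinv hreg.1 hreg.2

@[simp] theorem dsa_mkCusp'_coe (N : ℕ) [NeZero N] (k : ℤ) (g : ℍ → ℂ) (hinv : dsa_Inv1 N k g)
    (hreg : dsa_Reg k g) : ⇑(dsa_mkCusp' N k g hinv hreg) = g := rfl

/-- A5: `T^χ` of a cusp form with nebentypus `χ` is a cusp form. -/
theorem dsa_T_cusp (N : ℕ) [NeZero N] (k : ℤ) (p : ℕ) (hp : p.Prime) (hpN : ¬ p ∣ N)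
    (χ : DirichletCharacter ℂ N) (f : CuspForm (Gamma1 N) k) (hf : dsa_Neben N k χ ⇑f) :
    ∃ F : CuspForm (Gamma1 N) k, ⇑F = dsa_T k p (χ (p : ZMod N)) ⇑f :=
  ⟨dsa_mkCusp' N k _ (dsa_inv1_of_neben N k χ _ (dsa_T_neben N k p hp hpN χ _ hf))
    (dsa_reg_T p _ (dsa_reg_coe N k f)), rfl⟩

end
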