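import Mathlib
import Fermat.Agent.DS.A.Defs
import Fermat.Agent.DS.A.Lift
import Fermat.Agent.DS.A.Diamond
import Fermat.Agent.DS.A.Coset
import Fermat.Agent.DS.A.DComm
import Fermat.Agent.DS.A.Cusp

/-!
# DS-A, row A3: character decomposition of `S_k(Γ₁(N))`
-/

set_option autoImplicit false

open CongruenceSubgroup ModularForm UpperHalfPlane Matrix.SpecialLinearGroup
open scoped MatrixGroups ModularForm

noncomputable section

/-- lower-right entry of a product in `Γ₀(N)`. -/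
theorem dsa_mul_d (N : ℕ) (γ γ' : SL(2, ℤ)) (hγ : γ ∈ Gamma0 N) :
    (((γ * γ') 1 1 : ℤ) : ZMod N) = ((γ 1 1 : ℤ) : ZMod N) * ((γ' 1 1 : ℤ) : ZMod N) := by
  rw [Gamma0_mem] at hγ
  simp only [Matrix.SpecialLinearGroup.coe_mul, Matrix.mul_apply, Fin.sum_univ_two]
  push_cast
  rw [hγ]
  ring

/-- `(⟨d⟩ f) ∣ γ = ⟨d e⟩ f` for `γ ∈ Γ₀(N)` with `d_γ = e`. -/
theorem dsa_diamond_slash (N : ℕ) [NeZero N] (k : ℤ) (d e : (ZMod N)ˣ)
    (f : CuspForm (Gamma1 N) k) (γ : SL(2, ℤ)) (hγ : γ ∈ Gamma0 N)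
    (he : ((γ 1 1 : ℤ) : ZMod N) = e) :
    ⇑(dsa_diamond N k d f) ∣[k] γ = ⇑(dsa_diamond N k (d * e) f) := by
  have h1 : ⇑(dsa_diamond N k d f) = ⇑f ∣[k] (dsa_liftElt N d) := rfl
  rw [h1, ← SlashAction.slash_mul]
  refine (dsa_diamond_coe N k (d * e) f (dsa_liftElt N d * γ)
    ((Gamma0 N).mul_mem (dsa_liftElt_mem N d) hγ) ?_).symm
  rw [dsa_mul_d N _ _ (dsa_liftElt_mem N d), dsa_liftElt_d, he]
  rfl

theorem dsa_diamond_one (N : ℕ) [NeZero N] (k : ℤ) (f : CuspForm (Gamma1 N) k) :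
    dsa_diamond N k 1 f = f := by
  apply DFunLike.coe_injective
  rw [dsa_diamond_coe N k 1 f 1 (Subgroup.one_mem _) (by simp)]
  exact SlashAction.slash_one k ⇑f

/-- The `χ`-component of `f`. -/
def dsa_comp (N : ℕ) [NeZero N] (k : ℤ) (χ : DirichletCharacter ℂ N)
    (f : CuspForm (Gamma1 N) k) : CuspForm (Gamma1 N) k :=
  ((N.totient : ℂ)⁻¹) • ∑ d : (ZMod N)ˣ, χ ((d⁻¹ : (ZMod N)ˣ) : ZMod N) • dsa_diamond N k d f

theorem dsa_comp_coe (N : ℕ) [NeZero N] (k : ℤ) (χ : DirichletCharacter ℂ N)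
    (f : CuspForm (Gamma1 N) k) :
    ⇑(dsa_comp N k χ f) = ((N.totient : ℂ)⁻¹) •
      ∑ d : (ZMod N)ˣ, χ ((d⁻¹ : (ZMod N)ˣ) : ZMod N) • ⇑(dsa_diamond N k d f) := by
  rw [dsa_comp, FunLike.coe_smul, FunLike.coe_sum]
  rfl

theorem dsa_comp_neben (N : ℕ) [NeZero N] (k : ℤ) (χ : DirichletCharacter ℂ N)
    (f : CuspForm (Gamma1 N) k) : dsa_Neben N k χ ⇑(dsa_comp N k χ f) := by
  intro γ hγ
  set e : (ZMod N)ˣ := dsa_unitOf N γ hγ with he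
  have hev : ((γ 1 1 : ℤ) : ZMod N) = e := (dsa_unitOf_val N γ hγ).symm
  rw [dsa_comp_coe, ModularForm.SL_smul_slash, SlashAction.sum_slash, smul_comm]
  congr 1
  rw [Finset.smul_sum]
  calc ∑ d : (ZMod N)ˣ, (χ ((d⁻¹ : (ZMod N)ˣ) : ZMod N) • ⇑(dsa_diamond N k d f)) ∣[k] γ
      = ∑ d : (ZMod N)ˣ, χ ((γ 1 1 : ℤ) : ZMod N) •
          (χ (((d * e)⁻¹ : (ZMod N)ˣ) : ZMod N) • ⇑(dsa_diamond N k (d * e) f)) := by
        refine Finset.sum_congr rfl fun d _ => ?_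
        rw [ModularForm.SL_smul_slash, dsa_diamond_slash N k d e f γ hγ hev, smul_smul, hev,
          ← map_mul]
        congr 2
        rw [← Units.val_mul]
        congr 1
        group
    _ = ∑ d : (ZMod N)ˣ, χ ((γ 1 1 : ℤ) : ZMod N) •
          (χ ((d⁻¹ : (ZMod N)ˣ) : ZMod N) • ⇑(dsa_diamond N k d f)) :=
        Equiv.sum_comp (Equiv.mulRight e) (fun d => χ ((γ 1 1 : ℤ) : ZMod N) •
          (χ ((d⁻¹ : (ZMod N)ˣ) : ZMod N) • ⇑(dsa_diamond N k d f)))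

theorem dsa_sum_char (N : ℕ) [NeZero N] (b : ZMod N) :
    ∑ χ : DirichletCharacter ℂ N, χ b = if 1 = b then (N.totient : ℂ) else 0 := by
  have := DirichletCharacter.sum_char_inv_mul_char_eq ℂ (n := N) (a := 1) isUnit_one b
  simpa using this

theorem dsa_sum_comp (N : ℕ) [NeZero N] (k : ℤ) (f : CuspForm (Gamma1 N) k) :
    ∑ χ : DirichletCharacter ℂ N, dsa_comp N k χ f = f := by
  have hφ : (N.totient : ℂ) ≠ 0 := by
    exact_mod_cast (Nat.totient_pos.mpr (Nat.pos_of_ne_zero (NeZero.ne N))).ne'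
  simp only [dsa_comp]
  rw [← Finset.smul_sum, Finset.sum_comm]
  have h1 : ∀ d : (ZMod N)ˣ, ∑ χ : DirichletCharacter ℂ N,
      χ ((d⁻¹ : (ZMod N)ˣ) : ZMod N) • dsa_diamond N k d f =
        (if d = 1 then (N.totient : ℂ) else 0) • dsa_diamond N k d f := by
    intro d
    rw [← Finset.sum_smul, dsa_sum_char]
    congr 1
    by_cases hd : d = 1
    · subst hd; simp
    · rw [if_neg hd, if_neg]
      intro h
      apply hd
      have : (d⁻¹ : (ZMod N)ˣ) = 1 := Units.ext h.symm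
      simpa using this
  rw [Finset.sum_congr rfl fun d _ => h1 d]
  simp only [ite_smul, zero_smul, Finset.sum_ite_eq', Finset.mem_univ, if_true]
  rw [smul_smul, inv_mul_cancel₀ hφ, one_smul, dsa_diamond_one]

/-- A3. -/
theorem dsa_decomp (N : ℕ) [NeZero N] (k : ℤ) (f : CuspForm (Gamma1 N) k) :
    ∃ c : DirichletCharacter ℂ N → CuspForm (Gamma1 N) k,
      (∑ χ, c χ = f) ∧ ∀ χ, dsa_Neben N k χ ⇑(c χ) :=
  ⟨fun χ => dsa_comp N k χ f, dsa_sum_comp N k f, fun χ => dsa_comp_neben N k χ f⟩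

/-! ### `Γ₁(N)`-invariance is closed under the linear operations -/

theorem dsa_inv1_add {N : ℕ} {k : ℤ} {g h : ℍ → ℂ} (hg : dsa_Inv1 N k g) (hh : dsa_Inv1 N k h) :
    dsa_Inv1 N k (g + h) := fun γ hγ => by
  rw [SlashAction.add_slash, hg γ hγ, hh γ hγ]

theorem dsa_inv1_smul {N : ℕ} {k : ℤ} {g : ℍ → ℂ} (a : ℂ) (hg : dsa_Inv1 N k g) :
    dsa_Inv1 N k (a • g) := fun γ hγ => by
  rw [ModularForm.SL_smul_slash, hg γ hγ]

theorem dsa_inv1_sub {N : ℕ} {k : ℤ} {g h : ℍ → ℂ} (hg : dsa_Inv1 N k g) (hh : dsa_Inv1 N k h) :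
    dsa_Inv1 N k (g - h) := by
  have : g - h = g + (-1 : ℂ) • h := by rw [neg_one_smul, sub_eq_add_neg]
  rw [this]
  exact dsa_inv1_add hg (dsa_inv1_smul _ hh)

theorem dsa_inv1_sum {N : ℕ} {k : ℤ} {ι : Type*} (s : Finset ι) {g : ι → ℍ → ℂ}
    (hg : ∀ i ∈ s, dsa_Inv1 N k (g i)) : dsa_Inv1 N k (∑ i ∈ s, g i) := fun γ hγ => by
  rw [SlashAction.sum_slash]
  exact Finset.sum_congr rfl fun i hi => hg i hi γ hγ

theorem dsa_D_sum (k : ℤ) (p : ℕ) {ι : Type*} (s : Finset ι) (g : ι → ℍ → ℂ) :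
    dsa_D k p (∑ i ∈ s, g i) = ∑ i ∈ s, dsa_D k p (g i) := by
  simp only [dsa_D]
  exact SlashAction.sum_slash _ _

/-- `D ⟨d⟩ f` is `Γ₁(N)`-invariant if `D f` is. -/
theorem dsa_D_diamond_inv1 (N : ℕ) [NeZero N] (k : ℤ) (p : ℕ) (hp : p.Prime) (hpN : ¬ p ∣ N)
    (f : CuspForm (Gamma1 N) k) (hD : dsa_Inv1 N k (dsa_D k p ⇑f)) (d : (ZMod N)ˣ) :
    dsa_Inv1 N k (dsa_D k p ⇑(dsa_diamond N k d f)) := by
  obtain ⟨γ₂, hγ₂, hd₂, hpc⟩ := dsa_lift N p hp hpN d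
  obtain ⟨γ₂', hγ₂', hd₂', hsl⟩ := dsa_D_slash N k p hp hpN γ₂ hγ₂ hpc
  rw [dsa_diamond_coe N k d f γ₂' hγ₂' (by rw [hd₂', hd₂]), ← hsl]
  exact dsa_inv1_slash N k γ₂ hγ₂ _ hD

/-- A3''. -/
theorem dsa_decomp_D (N : ℕ) [NeZero N] (k : ℤ) (p : ℕ) (hp : p.Prime) (hpN : ¬ p ∣ N)
    (f : CuspForm (Gamma1 N) k) (hD : dsa_Inv1 N k (dsa_D k p ⇑f)) :
    ∃ c : DirichletCharacter ℂ N → CuspForm (Gamma1 N) k,
      (∑ χ, c χ = f) ∧ (∀ χ, dsa_Neben N k χ ⇑(c χ)) ∧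
        ∀ χ, dsa_Inv1 N k (dsa_D k p ⇑(c χ)) := by
  refine ⟨fun χ => dsa_comp N k χ f, dsa_sum_comp N k f, fun χ => dsa_comp_neben N k χ f,
    fun χ => ?_⟩
  show dsa_Inv1 N k (dsa_D k p ⇑(dsa_comp N k χ f))
  rw [dsa_comp_coe, dsa_smul_D, dsa_D_sum]
  refine dsa_inv1_smul _ (dsa_inv1_sum _ fun d _ => ?_)
  rw [dsa_smul_D]
  exact dsa_inv1_smul _ (dsa_D_diamond_inv1 N k p hp hpN f hD d)

end
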