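import Mathlib
import Fermat.Prelude.Def_ModularForm_HeckeOperator
import Fermat.Prelude.Def_FLTPrelim_Modularity
import Fermat.Prelude.Sol.S_UpperHalfPlane_qCoeff_heckeT
import Fermat.Agent.DS.A.Defs

/-!
# DS-A row A10: the formal Hecke relation implies the function identity `T^c f = a • f`
-/

set_option autoImplicit false

open CongruenceSubgroup ModularForm UpperHalfPlane
open scoped MatrixGroups ModularForm

noncomputable section

/-- `1` is a strict period of `Γ₁(N)`. -/
theorem dsaff_one_mem_strictPeriods (N : ℕ) :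
    (1 : ℝ) ∈ (Gamma1 N : Subgroup (GL (Fin 2) ℝ)).strictPeriods := by
  rw [strictPeriods_Gamma1]
  exact AddSubgroup.mem_zmultiples 1

/-- A10: [Prelude `hasSum_average`, `hasSum_diag`, uniqueness of sums]. -/
theorem dsa_formal_to_fun (N : ℕ) [NeZero N] (k : ℤ) (p : ℕ) (hp : p ≠ 0) (c a : ℂ)
    (f : CuspForm (Gamma1 N) k)
    (hT : ∀ n : ℕ, ModularFormClass.qCoeff f (p * n) +
        c * (p : ℂ) ^ (k - 1) * (if p ∣ n then ModularFormClass.qCoeff f (n / p) else 0) =
          a * ModularFormClass.qCoeff f n) :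
    dsa_T k p c ⇑f = a • ⇑f := by
  have hΓ := dsaff_one_mem_strictPeriods N
  haveI : Fact (IsCusp OnePoint.infty (Gamma1 N : Subgroup (GL (Fin 2) ℝ))) :=
    ⟨Subgroup.isCusp_of_mem_strictPeriods one_pos hΓ⟩
  have hper : Function.Periodic (⇑f ∘ UpperHalfPlane.ofComplex) 1 :=
    SlashInvariantFormClass.periodic_comp_ofComplex f hΓ
  have hhol := ModularFormClass.holo f
  have hbdd := ModularFormClass.bdd_at_infty f
  funext τ
  have h1 := P2MW.S_UpperHalfPlane_qCoeff_heckeT.M4cP1W2.hasSum_average hp hper hhol hbdd τ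
  have h2 := (P2MW.S_UpperHalfPlane_qCoeff_heckeT.M4cP1W2.hasSum_diag hp hper hhol hbdd k τ).mul_left c
  have h3 := (P2MW.S_UpperHalfPlane_qCoeff_heckeT.M4cP1W2.hasSum_qCoeff f hΓ τ).mul_left a
  have h4 := h1.add h2
  have hval : dsa_T k p c ⇑f τ =
      (p : ℂ)⁻¹ * ∑ j ∈ Finset.range p, f (heckeMatrix p j • τ) +
        c * ((p : ℂ) ^ (k - 1) * f (heckeDiagMatrix p • τ)) := by
    rw [dsa_T, Pi.add_apply, heckeU_apply k hp, Pi.smul_apply, smul_eq_mul, dsa_D,
      slash_heckeDiagMatrix_apply k hp]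
  rw [hval, Pi.smul_apply, smul_eq_mul]
  have hfun : (fun b : ℕ => ModularFormClass.qCoeff (⇑f) (b * p) * Function.Periodic.qParam 1 ↑τ ^ b +
        c * if p ∣ b then (p : ℂ) ^ (k - 1) * ModularFormClass.qCoeff (⇑f) (b / p) *
          Function.Periodic.qParam 1 ↑τ ^ b else 0) =
      fun i : ℕ => a * ModularFormClass.qCoeff (⇑f) i • Function.Periodic.qParam 1 ↑τ ^ i := by
    funext n
    rw [smul_eq_mul, ← mul_assoc, ← hT n, mul_comm n p]
    split_ifs <;> ring
  rw [hfun] at h4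
  exact h4.unique h3

end
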