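import Mathlib
import Fermat.Prelude.Def_ModularForm_HeckeOperator
import Fermat.Prelude.Def_FLTPrelim_Modularity
import Fermat.Prelude.Sol.S_UpperHalfPlane_qCoeff_heckeT
import Fermat.Prelude.Sol.S_CuspFormClass_isZeroAt_heckeT
import Fermat.Prelude.Thm_ModularForm_sturm_bound_of_isArithmetic
import Fermat.Agent.DS.A.Defs

/-!
# DS-A row A8: Sturm — a cusp form all of whose `D^m`-translates have level `N` vanishes
-/

set_option autoImplicit false

open CongruenceSubgroup ModularForm UpperHalfPlane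
open scoped MatrixGroups ModularForm Manifold

noncomputable section

/-- `1` is a strict period of `Γ₁(N)`. -/
theorem dsast_one_mem_strictPeriods (N : ℕ) :
    (1 : ℝ) ∈ (Gamma1 N : Subgroup (GL (Fin 2) ℝ)).strictPeriods := by
  rw [strictPeriods_Gamma1]
  exact AddSubgroup.mem_zmultiples 1

/-- `D^m g = g ∣[k] diag(p,1)^m`. -/
theorem dsast_D_iter (k : ℤ) (p : ℕ) (m : ℕ) (g : ℍ → ℂ) :
    (dsa_D k p)^[m] g = g ∣[k] ((heckeDiagMatrix p) ^ m) := by
  induction m with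
  | zero => rw [Function.iterate_zero, id_eq, pow_zero, SlashAction.slash_one]
  | succ m ih =>
    rw [Function.iterate_succ_apply', ih, dsa_D, pow_succ, SlashAction.slash_mul]

/-- `diag(p,1)^m = diag(p^m,1)`. -/
theorem dsast_diag_pow (p : ℕ) (hp : p ≠ 0) (m : ℕ) :
    (heckeDiagMatrix p) ^ m = heckeDiagMatrix (p ^ m) := by
  induction m with
  | zero =>
    ext i j
    rw [pow_zero, pow_zero, val_heckeDiagMatrix one_ne_zero]
    fin_cases i <;> fin_cases j <;> simp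
  | succ m ih =>
    rw [pow_succ, ih]
    ext i j
    rw [Matrix.GeneralLinearGroup.coe_mul, val_heckeDiagMatrix (pow_ne_zero m hp),
      val_heckeDiagMatrix hp, val_heckeDiagMatrix (pow_ne_zero (m + 1) hp)]
    fin_cases i <;> fin_cases j <;> simp [pow_succ]

/-- `D^m g = D_{p^m} g`. -/
theorem dsast_D_iter' (k : ℤ) (p : ℕ) (hp : p ≠ 0) (m : ℕ) (g : ℍ → ℂ) :
    (dsa_D k p)^[m] g = dsa_D k (p ^ m) g := by
  rw [dsast_D_iter, dsast_diag_pow p hp, dsa_D]

/-- A8a: `D^m` of a cusp form is holomorphic and vanishes at all cusps, so if it is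
`Γ₁(N)`-invariant it is a cusp form of level `Γ₁(N)`. -/
theorem dsa_D_iter_cusp (N : ℕ) [NeZero N] (k : ℤ) (p : ℕ) (hp : p ≠ 0) (m : ℕ)
    (f : CuspForm (Gamma1 N) k) (hinv : dsa_Inv1 N k ((dsa_D k p)^[m] ⇑f)) :
    ∃ F : CuspForm (Gamma1 N) k, ⇑F = (dsa_D k p)^[m] ⇑f := by
  obtain ⟨g, hg⟩ :=
    P2MW.S_CuspFormClass_isZeroAt_heckeT.ModularForm.S06W2.exists_heckeDiagMatrix_eq_map (p ^ m)
  have hfun : (dsa_D k p)^[m] ⇑f = ⇑f ∣[k] (Matrix.GeneralLinearGroup.map (Rat.castHom ℝ) g) := by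
    rw [dsast_D_iter' k p hp, dsa_D, hg]
  refine ⟨{ toFun := (dsa_D k p)^[m] ⇑f
            slash_action_eq' := ?_
            holo' := ?_
            zero_at_cusps' := ?_ }, rfl⟩
  · rintro γ ⟨γ', hγ', rfl⟩
    exact hinv γ' hγ'
  · show MDiff ((dsa_D k p)^[m] ⇑f)
    rw [hfun]
    exact (ModularFormClass.holo f).slash k _
  · intro c hc
    show c.IsZeroAt ((dsa_D k p)^[m] ⇑f) k
    rw [hfun]
    exact P2MW.S_CuspFormClass_isZeroAt_heckeT.ModularForm.S06W2.isZeroAt_slash_ratCast f g hc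

/-- A8b: q-expansion of `D^m f` is supported on multiples of `p^m`. -/
theorem dsa_qCoeff_D_iter (N : ℕ) [NeZero N] (k : ℤ) (p : ℕ) (hp : p ≠ 0) (m : ℕ)
    (f F : CuspForm (Gamma1 N) k) (hF : ⇑F = (dsa_D k p)^[m] ⇑f) (n : ℕ) (hn : n < p ^ m) :
    ModularFormClass.qCoeff F n = 0 := by
  have hΓ := dsast_one_mem_strictPeriods N
  haveI : Fact (IsCusp OnePoint.infty (Gamma1 N : Subgroup (GL (Fin 2) ℝ))) :=
    ⟨Subgroup.isCusp_of_mem_strictPeriods one_pos hΓ⟩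
  rcases Nat.eq_zero_or_pos n with rfl | hn0
  · exact CuspFormClass.qExpansion_coeff_zero F one_pos hΓ
  have hpm : p ^ m ≠ 0 := pow_ne_zero m hp
  have hper : Function.Periodic (⇑f ∘ UpperHalfPlane.ofComplex) 1 :=
    SlashInvariantFormClass.periodic_comp_ofComplex f hΓ
  have hperF : Function.Periodic (⇑F ∘ UpperHalfPlane.ofComplex) 1 :=
    SlashInvariantFormClass.periodic_comp_ofComplex F hΓ
  have hs : ∀ τ : ℍ, HasSum (fun j : ℕ =>
      (if p ^ m ∣ j then ((p ^ m : ℕ) : ℂ) ^ (k - 1) * ModularFormClass.qCoeff (⇑f) (j / p ^ m)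
        else 0) • Function.Periodic.qParam 1 τ ^ j) (F τ) := by
    intro τ
    have h := P2MW.S_UpperHalfPlane_qCoeff_heckeT.M4cP1W2.hasSum_diag hpm hper
      (ModularFormClass.holo f) (ModularFormClass.bdd_at_infty f) k τ
    have hval : F τ = ((p ^ m : ℕ) : ℂ) ^ (k - 1) * f (heckeDiagMatrix (p ^ m) • τ) := by
      rw [hF, dsast_D_iter' k p hp, dsa_D, slash_heckeDiagMatrix_apply k hpm]
    rw [hval]
    convert h using 1
    funext j
    split_ifs <;> simp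
  have huniq := P2MW.S_UpperHalfPlane_qCoeff_heckeT.M4cP1W2.qExpansion_coeff_unique'
    (ModularFormClass.holo F).continuous
    (ModularFormClass.analyticAt_cuspFunction_zero F one_pos hΓ) hs n
  rw [ModularFormClass.qCoeff, ← huniq, if_neg]
  exact Nat.not_dvd_of_pos_of_lt hn0 hn

/-- `D^m` is injective on functions. -/
theorem dsast_D_iter_injective (k : ℤ) (p : ℕ) (m : ℕ) (g : ℍ → ℂ)
    (h : (dsa_D k p)^[m] g = 0) : g = 0 := by
  rw [dsast_D_iter] at h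
  have := congrArg (fun φ : ℍ → ℂ => φ ∣[k] ((heckeDiagMatrix p) ^ m)⁻¹) h
  simpa [← SlashAction.slash_mul] using this

/-- A8c (Sturm). -/
theorem dsa_eq_zero_of_D_iter (N : ℕ) [NeZero N] (k : ℤ) (p : ℕ) (hp : p.Prime)
    (f : CuspForm (Gamma1 N) k) (hinv : ∀ m : ℕ, dsa_Inv1 N k ((dsa_D k p)^[m] ⇑f)) : f = 0 := by
  have hΓ := dsast_one_mem_strictPeriods N
  set B : ℕ := (k * ((Gamma1 N : Subgroup (GL (Fin 2) ℝ)).relIndex 𝒮ℒ : ℤ)).toNat / 12 with hB
  obtain ⟨m, hm⟩ : ∃ m : ℕ, B < p ^ m := ⟨B, Nat.lt_pow_self hp.one_lt⟩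
  obtain ⟨F, hF⟩ := dsa_D_iter_cusp N k p hp.ne_zero m f (hinv m)
  have hcoef : ∀ n : ℕ, n < p ^ m → (qExpansion 1 ⇑F).coeff n = 0 := fun n hn =>
    dsa_qCoeff_D_iter N k p hp.ne_zero m f F hF n hn
  have hmf : (ModularFormClass.modularForm F : ModularForm (Gamma1 N) k) = 0 := by
    apply ModularForm.sturm_bound_of_isArithmetic hΓ
    refine lt_of_lt_of_le (show ((B : ℕ) : ℕ∞) < ((p ^ m : ℕ) : ℕ∞) by exact_mod_cast hm) ?_
    refine PowerSeries.nat_le_order _ _ fun i hi => ?_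
    exact hcoef i hi
  have hcoe : (⇑F : ℍ → ℂ) = 0 := by
    have := congrArg (fun G : ModularForm (Gamma1 N) k ↦ (⇑G : ℍ → ℂ)) hmf
    simpa using this
  have hf0 : (⇑f : ℍ → ℂ) = 0 := dsast_D_iter_injective k p m _ (hF ▸ hcoe)
  exact DFunLike.coe_injective (hf0.trans FunLike.coe_zero.symm)

end
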