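import Mathlib
import Fermat.Agent.DS.A.Defs
import Fermat.Agent.DS.A.Lift
import Fermat.Agent.DS.A.Diamond
import Fermat.Agent.DS.A.Coset
import Fermat.Agent.DS.A.DComm
import Fermat.Agent.DS.A.Cusp
import Fermat.Agent.DS.A.Decomp
import Fermat.Agent.DS.A.Sturm

/-!
# DS-A, row A9: the vanishing lemma

`h ∈ S_k(Γ₁(N))`, `D h = p^(k-1) h(p·)` again `Γ₁(N)`-invariant, `p ∤ N` ⟹ `h = 0`.
-/

set_option autoImplicit false

open CongruenceSubgroup ModularForm UpperHalfPlane Matrix.SpecialLinearGroup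
open scoped MatrixGroups ModularForm

noncomputable section

/-! ### closure of the nebentypus condition under the linear operations -/

theorem dsa_neben_add {N : ℕ} {k : ℤ} {χ : DirichletCharacter ℂ N} {g h : ℍ → ℂ}
    (hg : dsa_Neben N k χ g) (hh : dsa_Neben N k χ h) : dsa_Neben N k χ (g + h) := fun γ hγ => by
  rw [SlashAction.add_slash, hg γ hγ, hh γ hγ, smul_add]

theorem dsa_neben_smul {N : ℕ} {k : ℤ} {χ : DirichletCharacter ℂ N} {g : ℍ → ℂ} (a : ℂ)
    (hg : dsa_Neben N k χ g) : dsa_Neben N k χ (a • g) := fun γ hγ => by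
  rw [ModularForm.SL_smul_slash, hg γ hγ, smul_comm]

theorem dsa_neben_sub {N : ℕ} {k : ℤ} {χ : DirichletCharacter ℂ N} {g h : ℍ → ℂ}
    (hg : dsa_Neben N k χ g) (hh : dsa_Neben N k χ h) : dsa_Neben N k χ (g - h) := by
  have : g - h = g + (-1 : ℂ) • h := by rw [neg_one_smul, sub_eq_add_neg]
  rw [this]
  exact dsa_neben_add hg (dsa_neben_smul _ hh)

/-- `χ(p) ≠ 0` for a prime `p ∤ N`. -/
theorem dsa_chi_prime_ne_zero (N : ℕ) (χ : DirichletCharacter ℂ N) (p : ℕ) (hp : p.Prime)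
    (hpN : ¬ p ∣ N) : χ (p : ZMod N) ≠ 0 := by
  have hu : IsUnit ((p : ℕ) : ZMod N) :=
    (ZMod.isUnit_iff_coprime p N).mpr ((Nat.Prime.coprime_iff_not_dvd hp).mpr hpN)
  exact (hu.map χ).ne_zero

/-- A `Γ₁(N)`-invariant function is `1`-periodic. -/
theorem dsa_periodic_of_inv1 (N : ℕ) (k : ℤ) (g : ℍ → ℂ) (hg : dsa_Inv1 N k g) :
    Function.Periodic (g ∘ UpperHalfPlane.ofComplex) 1 := by
  let G : SlashInvariantForm (Gamma1 N) k :=
    { toFun := g
      slash_action_eq' := by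
        rintro γ ⟨γ', hγ', rfl⟩
        exact hg γ' hγ' }
  exact SlashInvariantFormClass.periodic_comp_ofComplex G (dsast_one_mem_strictPeriods N)

/-- A9a (single character): `g` of nebentypus `χ` with `D g` of level `N` vanishes. -/
theorem dsa_vanish_char (N : ℕ) [NeZero N] (k : ℤ) (p : ℕ) (hp : p.Prime) (hpN : ¬ p ∣ N)
    (χ : DirichletCharacter ℂ N) (g : CuspForm (Gamma1 N) k) (hg : dsa_Neben N k χ ⇑g)
    (hD : dsa_Inv1 N k (dsa_D k p ⇑g)) : g = 0 := by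
  have hχp := dsa_chi_prime_ne_zero N χ p hp hpN
  have key : ∀ m : ℕ, dsa_Neben N k χ ((dsa_D k p)^[m] ⇑g) ∧
      dsa_Neben N k χ ((dsa_D k p)^[m + 1] ⇑g) := by
    intro m
    induction m with
    | zero =>
      refine ⟨hg, ?_⟩
      exact dsa_D_neben N k p hp hpN χ _ hg hD
    | succ m ih =>
      refine ⟨ih.2, ?_⟩
      obtain ⟨h0, h1⟩ := ih
      have hT := dsa_T_neben N k p hp hpN χ _ h1
      have hper := dsa_periodic_of_inv1 N k _ (dsa_inv1_of_neben N k χ _ h0)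
      have hUD : heckeU k p ((dsa_D k p)^[m + 1] ⇑g) =
          (p : ℂ) ^ (k - 1) • (dsa_D k p)^[m] ⇑g := by
        rw [Function.iterate_succ_apply']
        exact dsa_U_D k p hp.ne_zero _ hper
      have h2 : χ (p : ZMod N) • (dsa_D k p)^[m + 1 + 1] ⇑g =
          dsa_T k p (χ (p : ZMod N)) ((dsa_D k p)^[m + 1] ⇑g) -
            (p : ℂ) ^ (k - 1) • (dsa_D k p)^[m] ⇑g := by
        rw [dsa_T, hUD, Function.iterate_succ_apply' (dsa_D k p) (m + 1)]
        abel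
      have h3 : dsa_Neben N k χ (χ (p : ZMod N) • (dsa_D k p)^[m + 1 + 1] ⇑g) := by
        rw [h2]
        exact dsa_neben_sub hT (dsa_neben_smul _ h0)
      have h4 := dsa_neben_smul (χ (p : ZMod N))⁻¹ h3
      rwa [smul_smul, inv_mul_cancel₀ hχp, one_smul] at h4
  exact dsa_eq_zero_of_D_iter N k p hp g
    (fun m => dsa_inv1_of_neben N k χ _ (key m).1)

/-- A9 (VANISHING LEMMA). -/
theorem dsa_vanish (N : ℕ) [NeZero N] (k : ℤ) (p : ℕ) (hp : p.Prime) (hpN : ¬ p ∣ N)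
    (h : CuspForm (Gamma1 N) k) (hD : dsa_Inv1 N k (dsa_D k p ⇑h)) : h = 0 := by
  obtain ⟨c, hsum, hneb, hDc⟩ := dsa_decomp_D N k p hp hpN h hD
  rw [← hsum]
  exact Finset.sum_eq_zero fun χ _ => dsa_vanish_char N k p hp hpN χ (c χ) (hneb χ) (hDc χ)

end
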