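import Mathlib
import Fermat.Prelude.Def_ModularForm_HeckeOperator
import Fermat.Prelude.Def_FLTPrelim_Modularity
import Fermat.Agent.DS.A.Defs
import Fermat.Agent.DS.A.Lift
import Fermat.Agent.DS.A.Diamond
import Fermat.Agent.DS.A.Coset
import Fermat.Agent.DS.A.DComm
import Fermat.Agent.DS.A.Cusp
import Fermat.Agent.DS.A.Decomp
import Fermat.Agent.DS.A.Sturm
import Fermat.Agent.DS.A.FormalToFun
import Fermat.Agent.DS.A.Vanish

/-!
# DS-A, row A12: assembly — the formal Hecke relations force the nebentypus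
-/

set_option autoImplicit false

open CongruenceSubgroup ModularForm UpperHalfPlane Matrix.SpecialLinearGroup
open scoped MatrixGroups ModularForm

noncomputable section

theorem dsa_heckeU_sum (k : ℤ) (p : ℕ) {ι : Type*} (s : Finset ι) (g : ι → ℍ → ℂ) :
    heckeU k p (∑ i ∈ s, g i) = ∑ i ∈ s, heckeU k p (g i) := by
  classical
  induction s using Finset.induction_on with
  | empty => simp
  | insert a s ha ih => rw [Finset.sum_insert ha, Finset.sum_insert ha, heckeU_add, ih]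

theorem dsa_sub_D (k : ℤ) (p : ℕ) (g h : ℍ → ℂ) :
    dsa_D k p (g - h) = dsa_D k p g - dsa_D k p h := by
  have : g - h = g + (-1 : ℂ) • h := by rw [neg_one_smul, sub_eq_add_neg]
  rw [this, dsa_add_D, dsa_smul_D, neg_one_smul, sub_eq_add_neg]

/-- the unit of `(ℤ/N)ˣ` defined by a prime `p ∤ N`. -/
def dsa_primeUnit (N p : ℕ) (hp : p.Prime) (hpN : ¬ p ∣ N) : (ZMod N)ˣ :=
  ZMod.unitOfCoprime p ((Nat.Prime.coprime_iff_not_dvd hp).mpr hpN)

@[simp] theorem dsa_primeUnit_val (N p : ℕ) (hp : p.Prime) (hpN : ¬ p ∣ N) :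
    ((dsa_primeUnit N p hp hpN : (ZMod N)ˣ) : ZMod N) = (p : ZMod N) := rfl

/-- `⟨d⟩` acts on a function with nebentypus `χ` through `χ(d)`. -/
theorem dsa_diamond_of_neben (N : ℕ) [NeZero N] (k : ℤ) (χ : DirichletCharacter ℂ N)
    (d : (ZMod N)ˣ) (f : CuspForm (Gamma1 N) k) (hf : dsa_Neben N k χ ⇑f) :
    ⇑(dsa_diamond N k d f) = χ (d : ZMod N) • ⇑f := by
  show ⇑f ∣[k] (dsa_liftElt N d) = _
  rw [hf _ (dsa_liftElt_mem N d), dsa_liftElt_d]

/-- A12a: one prime: the formal Hecke relation at `p` forces `⟨p⟩ f = ε(p) f`. -/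
theorem dsa_diamond_prime (N : ℕ) [NeZero N] (k : ℤ) (ε : DirichletCharacter ℂ N)
    (f : CuspForm (Gamma1 N) k) (p : ℕ) (hp : p.Prime) (hpN : ¬ p ∣ N) (a : ℂ)
    (hT : ∀ n : ℕ, ModularFormClass.qCoeff f (p * n) +
        ε (p : ZMod N) * (p : ℂ) ^ (k - 1) *
          (if p ∣ n then ModularFormClass.qCoeff f (n / p) else 0) =
          a * ModularFormClass.qCoeff f n) :
    dsa_diamond N k (dsa_primeUnit N p hp hpN) f = ε (p : ZMod N) • f := by
  set P := dsa_primeUnit N p hp hpN with hP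
  have hfun : dsa_T k p (ε (p : ZMod N)) ⇑f = a • ⇑f :=
    dsa_formal_to_fun N k p hp.ne_zero (ε (p : ZMod N)) a f hT
  -- decomposition
  have hsum : ∑ χ : DirichletCharacter ℂ N, dsa_comp N k χ f = f := dsa_sum_comp N k f
  have hneb : ∀ χ : DirichletCharacter ℂ N, dsa_Neben N k χ ⇑(dsa_comp N k χ f) :=
    fun χ => dsa_comp_neben N k χ f
  have hcoe : (⇑f : ℍ → ℂ) = ∑ χ : DirichletCharacter ℂ N, ⇑(dsa_comp N k χ f) := by
    conv_lhs => rw [← hsum]
    exact FunLike.coe_sum _ _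
  -- `⟨P⟩ f = ∑ χ(p) f_χ`
  have hdia : (⇑(dsa_diamond N k P f) : ℍ → ℂ) =
      ∑ χ : DirichletCharacter ℂ N, χ (p : ZMod N) • ⇑(dsa_comp N k χ f) := by
    have h1 : dsa_diamond N k P f = ∑ χ : DirichletCharacter ℂ N,
        dsa_diamond N k P (dsa_comp N k χ f) := by
      conv_lhs => rw [← hsum]
      exact map_sum _ _ _
    rw [h1, FunLike.coe_sum]
    refine Finset.sum_congr rfl fun χ _ => ?_
    rw [dsa_diamond_of_neben N k χ P _ (hneb χ), hP, dsa_primeUnit_val]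
  -- `∑ T^χ f_χ = U f + D ⟨P⟩ f`
  have hTsum : ∑ χ : DirichletCharacter ℂ N, dsa_T k p (χ (p : ZMod N)) ⇑(dsa_comp N k χ f) =
      heckeU k p ⇑f + dsa_D k p ⇑(dsa_diamond N k P f) := by
    rw [hcoe, hdia, dsa_heckeU_sum, dsa_D_sum, ← Finset.sum_add_distrib]
    refine Finset.sum_congr rfl fun χ _ => ?_
    rw [dsa_T, dsa_smul_D]
  -- `h := ⟨P⟩ f - ε(p) f`
  set h : CuspForm (Gamma1 N) k := dsa_diamond N k P f - ε (p : ZMod N) • f with hh
  have hDh : dsa_D k p ⇑h = (∑ χ : DirichletCharacter ℂ N,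
      dsa_T k p (χ (p : ZMod N)) ⇑(dsa_comp N k χ f)) - a • ⇑f := by
    rw [hTsum, ← hfun, hh, FunLike.coe_sub, FunLike.coe_smul, dsa_sub_D, dsa_smul_D, dsa_T]
    abel
  have hinv : dsa_Inv1 N k (dsa_D k p ⇑h) := by
    rw [hDh]
    refine dsa_inv1_sub (dsa_inv1_sum _ fun χ _ => ?_) (dsa_inv1_smul a (dsa_inv1_coe N k f))
    exact dsa_inv1_of_neben N k χ _ (dsa_T_neben N k p hp hpN χ _ (hneb χ))
  have h0 : h = 0 := dsa_vanish N k p hp hpN h hinv
  exact sub_eq_zero.mp h0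

/-- **TOP (general weight)**: the formal Hecke relations force nebentypus `ε`. -/
theorem dsa_nebentypus (N : ℕ) [NeZero N] (k : ℤ) (ε : DirichletCharacter ℂ N)
    (f : CuspForm (Gamma1 N) k) (lam : ℕ → ℂ)
    (hT : ∀ p : ℕ, p.Prime → ¬ p ∣ N → ∀ n : ℕ,
        ModularFormClass.qCoeff f (p * n) +
          ε (p : ZMod N) * (p : ℂ) ^ (k - 1) *
            (if p ∣ n then ModularFormClass.qCoeff f (n / p) else 0) =
          lam p * ModularFormClass.qCoeff f n) :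
    dsa_Neben N k ε ⇑f := by
  intro γ hγ
  set e : (ZMod N)ˣ := dsa_unitOf N γ hγ with he
  obtain ⟨p, hpgt, hp, hpe⟩ := Nat.forall_exists_prime_gt_and_eq_mod (q := N) e.isUnit N
  have hpN : ¬ p ∣ N := fun h =>
    absurd (Nat.le_of_dvd (Nat.pos_of_ne_zero (NeZero.ne N)) h) (not_le.mpr hpgt)
  have h1 := dsa_diamond_prime N k ε f p hp hpN (lam p) (hT p hp hpN)
  have h2 : dsa_primeUnit N p hp hpN = e := Units.ext hpe
  rw [h2] at h1
  have h3 : ⇑(dsa_diamond N k e f) = ⇑f ∣[k] γ :=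
    dsa_diamond_coe N k e f γ hγ (dsa_unitOf_val N γ hγ).symm
  rw [← h3, h1, FunLike.coe_smul, hpe, he, dsa_unitOf_val]

/-- **TOP EXPORT (weight one, hypotheses verbatim as in frozen S48, `hf₁` not needed)**. -/
theorem dsa_nebentypus_one (N : ℕ) [NeZero N] (ε : DirichletCharacter ℂ N)
    (f : CuspForm (Gamma1 N) 1)
    (hT : ∀ p : ℕ, p.Prime → ¬ p ∣ N → ∀ n : ℕ,
        ModularFormClass.qCoeff f (p * n) +
            ε (p : ZMod N) * (if p ∣ n then ModularFormClass.qCoeff f (n / p) else 0) =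
          ModularFormClass.qCoeff f p * ModularFormClass.qCoeff f n) :
    ∀ γ : SL(2, ℤ), γ ∈ Gamma0 N → ⇑f ∣[(1 : ℤ)] γ = ε ((γ 1 1 : ℤ) : ZMod N) • ⇑f := by
  refine dsa_nebentypus N 1 ε f (fun p => ModularFormClass.qCoeff f p) ?_
  intro p hp hpN n
  rw [sub_self, zpow_zero, mul_one]
  exact hT p hp hpN n

/-- weight one: `-1` acts by `-1`. -/
theorem dsa_slash_neg_one_wt1 (f : ℍ → ℂ) : f ∣[(1 : ℤ)] (-1 : SL(2, ℤ)) = -f := by
  funext τ
  rw [ModularForm.SL_slash_apply]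
  have h1 : (-1 : SL(2, ℤ)) • τ = τ := by
    simp
  have h2 : denom ((-1 : SL(2, ℤ)) : GL (Fin 2) ℝ) τ = -1 := by
    simp [denom]
  rw [h1, h2]
  simp

/-- Corollary (oddness): `ε(-1) = -1`. -/
theorem dsa_eps_neg_one (N : ℕ) [NeZero N] (ε : DirichletCharacter ℂ N)
    (f : CuspForm (Gamma1 N) 1) (hf₁ : ModularFormClass.qCoeff f 1 = 1)
    (hT : ∀ p : ℕ, p.Prime → ¬ p ∣ N → ∀ n : ℕ,
        ModularFormClass.qCoeff f (p * n) +
            ε (p : ZMod N) * (if p ∣ n then ModularFormClass.qCoeff f (n / p) else 0) =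
          ModularFormClass.qCoeff f p * ModularFormClass.qCoeff f n) :
    ε (-1) = -1 := by
  have h := dsa_nebentypus_one N ε f hT (-1) (by rw [Gamma0_mem]; simp)
  rw [dsa_slash_neg_one_wt1] at h
  have hd : (((-1 : SL(2, ℤ)) 1 1 : ℤ) : ZMod N) = -1 := by simp
  rw [hd] at h
  -- `f ≠ 0`
  have hf0 : (⇑f : ℍ → ℂ) ≠ 0 := by
    intro h0
    have : ModularFormClass.qCoeff f 1 = 0 := by
      rw [ModularFormClass.qCoeff, h0]
      simp [UpperHalfPlane.qExpansion_zero]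
    rw [hf₁] at this
    exact one_ne_zero this
  obtain ⟨τ, hτ⟩ : ∃ τ : ℍ, f τ ≠ 0 := by
    by_contra hcon
    exact hf0 (funext fun τ => by
      by_contra hτ
      exact hcon ⟨τ, hτ⟩)
  have h2 := congrFun h τ
  simp only [Pi.neg_apply, Pi.smul_apply, smul_eq_mul] at h2
  have h3 : (ε (-1) + 1) * f τ = 0 := by linear_combination -h2
  rcases mul_eq_zero.mp h3 with h4 | h4
  · linear_combination h4
  · exact absurd h4 hτ

/-- Corollary (honest Hecke eigen-equation at function level). -/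
theorem dsa_hecke_fun (N : ℕ) [NeZero N] (ε : DirichletCharacter ℂ N)
    (f : CuspForm (Gamma1 N) 1)
    (hT : ∀ p : ℕ, p.Prime → ¬ p ∣ N → ∀ n : ℕ,
        ModularFormClass.qCoeff f (p * n) +
            ε (p : ZMod N) * (if p ∣ n then ModularFormClass.qCoeff f (n / p) else 0) =
          ModularFormClass.qCoeff f p * ModularFormClass.qCoeff f n)
    (p : ℕ) (hp : p.Prime) (hpN : ¬ p ∣ N) :
    heckeU 1 p ⇑f + ε (p : ZMod N) • (⇑f ∣[(1 : ℤ)] heckeDiagMatrix p) =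
      ModularFormClass.qCoeff f p • ⇑f := by
  have := dsa_formal_to_fun N 1 p hp.ne_zero (ε (p : ZMod N)) (ModularFormClass.qCoeff f p) f
    (fun n => by rw [sub_self, zpow_zero, mul_one]; exact hT p hp hpN n)
  exact this

end
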