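import Mathlib
import Fermat.Agent.DS.A.Defs
import Fermat.Agent.DS.A.Lift
import Fermat.Agent.DS.A.Diamond
import Fermat.Agent.DS.A.Coset
import Fermat.Agent.DS.A.DComm
import Fermat.Agent.DS.A.Cusp
import Fermat.Agent.DS.A.Decomp
import Fermat.Agent.DS.A.Sturm
import Fermat.Agent.DS.A.FormalToFun
import Fermat.Agent.DS.A.Vanish
import Fermat.Agent.DS.A.Main

/-!
# DS-A, rows A3' and A12a: uniqueness of the character components
-/

set_option autoImplicit false

open CongruenceSubgroup ModularForm UpperHalfPlane Matrix.SpecialLinearGroup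
open scoped MatrixGroups ModularForm

noncomputable section

/-- orthogonality: sum of a Dirichlet character over the units. -/
theorem dsa_sum_units_char (N : ℕ) [NeZero N] (ψ : DirichletCharacter ℂ N) :
    ∑ d : (ZMod N)ˣ, ψ (d : ZMod N) = if ψ = 1 then (N.totient : ℂ) else 0 := by
  by_cases h : ψ = 1
  · rw [if_pos h, h]
    simp [MulChar.one_apply_coe, ZMod.card_units_eq_totient]
  · rw [if_neg h]
    obtain ⟨e, he⟩ := MulChar.ne_one_iff.mp h
    have h1 : ∑ d : (ZMod N)ˣ, ψ (d : ZMod N) = ψ (e : ZMod N) * ∑ d : (ZMod N)ˣ, ψ (d : ZMod N) := by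
      rw [Finset.mul_sum]
      calc ∑ d : (ZMod N)ˣ, ψ (d : ZMod N)
          = ∑ d : (ZMod N)ˣ, ψ (((e * d : (ZMod N)ˣ)) : ZMod N) :=
            (Equiv.sum_comp (Equiv.mulLeft e) (fun d : (ZMod N)ˣ => ψ (d : ZMod N))).symm
        _ = ∑ d : (ZMod N)ˣ, ψ (e : ZMod N) * ψ (d : ZMod N) := by
            refine Finset.sum_congr rfl fun d _ => ?_
            rw [Units.val_mul, map_mul]
    have h2 : (1 - ψ (e : ZMod N)) * ∑ d : (ZMod N)ˣ, ψ (d : ZMod N) = 0 := by
      linear_combination h1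
    rcases mul_eq_zero.mp h2 with h3 | h3
    · exact absurd (by linear_combination -h3) he
    · exact h3

/-- the component projector kills forms of a different nebentypus and fixes those of the same. -/
theorem dsa_comp_of_neben (N : ℕ) [NeZero N] (k : ℤ) (χ χ₀ : DirichletCharacter ℂ N)
    (g : CuspForm (Gamma1 N) k) (hg : dsa_Neben N k χ ⇑g) :
    dsa_comp N k χ₀ g = if χ = χ₀ then g else 0 := by
  have hφ : (N.totient : ℂ) ≠ 0 := by
    exact_mod_cast (Nat.totient_pos.mpr (Nat.pos_of_ne_zero (NeZero.ne N))).ne'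
  have h1 : ∀ d : (ZMod N)ˣ, χ₀ ((d⁻¹ : (ZMod N)ˣ) : ZMod N) • dsa_diamond N k d g =
      ((χ₀⁻¹ * χ) (d : ZMod N)) • g := by
    intro d
    apply DFunLike.coe_injective
    rw [FunLike.coe_smul, FunLike.coe_smul, dsa_diamond_of_neben N k χ d g hg, smul_smul,
      MulChar.mul_apply, MulChar.inv_apply, Ring.inverse_unit]
  rw [dsa_comp, Finset.sum_congr rfl fun d _ => h1 d, ← Finset.sum_smul, dsa_sum_units_char,
    smul_smul]
  by_cases h : χ = χ₀
  · rw [if_pos h, if_pos (by rw [h]; exact inv_mul_cancel χ₀), inv_mul_cancel₀ hφ, one_smul]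
  · rw [if_neg h, if_neg, mul_zero, zero_smul]
    intro h2
    apply h
    have := congrArg (fun x => χ₀ * x) h2
    simpa [← mul_assoc] using this

/-- `dsa_comp` is additive over finite sums. -/
theorem dsa_comp_sum (N : ℕ) [NeZero N] (k : ℤ) (χ₀ : DirichletCharacter ℂ N) {ι : Type*}
    (s : Finset ι) (c : ι → CuspForm (Gamma1 N) k) :
    dsa_comp N k χ₀ (∑ i ∈ s, c i) = ∑ i ∈ s, dsa_comp N k χ₀ (c i) := by
  simp only [dsa_comp, map_sum, Finset.smul_sum]
  rw [Finset.sum_comm]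

/-- A3': uniqueness of the components. -/
theorem dsa_decomp_unique (N : ℕ) [NeZero N] (k : ℤ)
    (c : DirichletCharacter ℂ N → CuspForm (Gamma1 N) k)
    (hc : ∀ χ, dsa_Neben N k χ ⇑(c χ)) (h0 : ∑ χ, c χ = 0) : ∀ χ, c χ = 0 := by
  intro χ₀
  have h1 := congrArg (dsa_comp N k χ₀) h0
  rw [dsa_comp_sum, Finset.sum_congr rfl fun χ _ => dsa_comp_of_neben N k χ χ₀ (c χ) (hc χ),
    Finset.sum_ite_eq' Finset.univ χ₀ c, if_pos (Finset.mem_univ _)] at h1
  rw [h1]
  simp [dsa_comp]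

/-- Any decomposition into nebentypus components is THE decomposition `dsa_comp`. -/
theorem dsa_decomp_eq_comp (N : ℕ) [NeZero N] (k : ℤ) (f : CuspForm (Gamma1 N) k)
    (c : DirichletCharacter ℂ N → CuspForm (Gamma1 N) k)
    (hc : ∀ χ, dsa_Neben N k χ ⇑(c χ)) (hsum : ∑ χ, c χ = f) : ∀ χ, c χ = dsa_comp N k χ f := by
  intro χ₀
  rw [← hsum, dsa_comp_sum,
    Finset.sum_congr rfl fun χ _ => dsa_comp_of_neben N k χ χ₀ (c χ) (hc χ),
    Finset.sum_ite_eq' Finset.univ χ₀ c, if_pos (Finset.mem_univ _)]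

/-- A12a: every component `f_χ` with `χ(p) ≠ ε(p)` vanishes. -/
theorem dsa_comp_eq_zero (N : ℕ) [NeZero N] (k : ℤ) (ε : DirichletCharacter ℂ N)
    (f : CuspForm (Gamma1 N) k) (p : ℕ) (hp : p.Prime) (hpN : ¬ p ∣ N) (a : ℂ)
    (hT : ∀ n : ℕ, ModularFormClass.qCoeff f (p * n) +
        ε (p : ZMod N) * (p : ℂ) ^ (k - 1) *
          (if p ∣ n then ModularFormClass.qCoeff f (n / p) else 0) =
          a * ModularFormClass.qCoeff f n)
    (c : DirichletCharacter ℂ N → CuspForm (Gamma1 N) k) (hsum : ∑ χ, c χ = f)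
    (hc : ∀ χ, dsa_Neben N k χ ⇑(c χ)) (χ : DirichletCharacter ℂ N)
    (hχ : χ (p : ZMod N) ≠ ε (p : ZMod N)) : c χ = 0 := by
  have h1 := dsa_diamond_prime N k ε f p hp hpN a hT
  set P := dsa_primeUnit N p hp hpN with hP
  -- `∑ (χ(p) - ε(p)) c_χ = 0`
  have h2 : ∑ χ' : DirichletCharacter ℂ N, (χ' (p : ZMod N) - ε (p : ZMod N)) • c χ' = 0 := by
    have h3 : dsa_diamond N k P f = ∑ χ' : DirichletCharacter ℂ N, χ' (p : ZMod N) • c χ' := by
      rw [← hsum, map_sum]
      refine Finset.sum_congr rfl fun χ' _ => ?_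
      apply DFunLike.coe_injective
      rw [dsa_diamond_of_neben N k χ' P _ (hc χ'), FunLike.coe_smul, hP, dsa_primeUnit_val]
    rw [h3] at h1
    simp only [sub_smul, Finset.sum_sub_distrib]
    rw [h1, ← hsum, Finset.smul_sum, sub_self]
  have h4 := dsa_decomp_unique N k (fun χ' => (χ' (p : ZMod N) - ε (p : ZMod N)) • c χ')
    (fun χ' => by
      rw [FunLike.coe_smul]
      exact dsa_neben_smul _ (hc χ')) h2 χ
  rcases smul_eq_zero.mp h4 with h5 | h5
  · exact absurd (sub_eq_zero.mp h5) hχ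
  · exact h5

end
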