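import Fermat.Agent.DS.A.Main
import Fermat.Agent.DS.A.Unique
import Fermat.Agent.DS.A.PrimeNe

/-!
# DS-A: umbrella import.  Every statement of `DS/A/Spec.lean` is proved (verbatim) in the closure
of this file; `Spec.lean` itself must NOT be imported together with it (same names).
-/
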