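import Fermat.Agent.DS.A.All

/-!
# DS-A: hub

All 24 statements of the original DS-A Spec (stub text: `blueprints/S48-A-Spec.lean.txt`) are now
PROVED, verbatim, in the closure of `Fermat.Agent.DS.A.All`.  This file is kept only so that
`import Fermat.Agent.DS.A.Spec` keeps working for consumers; it adds nothing.
-/
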